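import Mathlib
import Fermat.Agent.S53.DictTan
import Fermat.Agent.S53.H596.PowerSeriesCNL

/-!
# S56, tangent-space step (pure commutative algebra)

`R` a complete Noetherian local `𝒪`-algebra with the same residue field `k` as `𝒪`.
If the set of `𝒪`-algebra maps `R → k[ε]` injects into a set with at most `|k| ^ r` elements,
then `R` is a quotient of `𝒪⟦X₁,…,X_r⟧`.

Main results: `relCotangent_dual_injection`, `exists_surjective_of_finrank_relCotangent_le`,
`exists_surjective_of_card_algHom_le`, `exists_surjective_of_injective_algHom`.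
-/

set_option autoImplicit false
set_option linter.unusedSectionVars false

namespace Fermat.Agent.S56.H134

open IsLocalRing

noncomputable section

section Setup

variable (𝒪 : Type) [CommRing 𝒪] [IsLocalRing 𝒪]
variable (R : Type) [CommRing R] [IsLocalRing R] [Algebra 𝒪 R]

/-- The image of `𝔪_𝒪 R` in the cotangent space of `R`, as a subspace over the residue field. -/
def relSub : Submodule (ResidueField R) (CotangentSpace R) where
  carrier := {c | ∃ z : maximalIdeal R,
    (z : R) ∈ Ideal.map (algebraMap 𝒪 R) (maximalIdeal 𝒪) ∧ (maximalIdeal R).toCotangent z = c}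
  add_mem' := by
    rintro _ _ ⟨z, hz, rfl⟩ ⟨w, hw, rfl⟩
    exact ⟨z + w, Ideal.add_mem _ hz hw, map_add _ _ _⟩
  zero_mem' := ⟨0, Ideal.zero_mem _, map_zero _⟩
  smul_mem' := by
    rintro c _ ⟨z, hz, rfl⟩
    obtain ⟨r, rfl⟩ := residue_surjective c
    refine ⟨r • z, ?_, ?_⟩
    · simpa using Ideal.mul_mem_left _ r hz
    · rw [map_smul]
      exact (algebraMap_smul (ResidueField R) r ((maximalIdeal R).toCotangent z)).symm

/-- The relative cotangent space `𝔪_R / (𝔪_𝒪 R + 𝔪_R²)`. -/
abbrev RelCotangent : Type := CotangentSpace R ⧸ relSub 𝒪 R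

/-- The projection `𝔪_R → 𝔪_R / (𝔪_𝒪 R + 𝔪_R²)`. -/
def toRel (z : maximalIdeal R) : RelCotangent 𝒪 R :=
  Submodule.Quotient.mk ((maximalIdeal R).toCotangent z)

variable {𝒪 R}

theorem toRel_add (z w : maximalIdeal R) : toRel 𝒪 R (z + w) = toRel 𝒪 R z + toRel 𝒪 R w := by
  simp [toRel]

theorem toRel_zero : toRel 𝒪 R 0 = 0 := by simp [toRel]

theorem toRel_sub (z w : maximalIdeal R) : toRel 𝒪 R (z - w) = toRel 𝒪 R z - toRel 𝒪 R w := by
  simp [toRel]

theorem toRel_smul (r : R) (z : maximalIdeal R) :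
    toRel 𝒪 R (r • z) = residue R r • toRel 𝒪 R z := by
  unfold toRel
  rw [map_smul, ← algebraMap_smul (ResidueField R) r ((maximalIdeal R).toCotangent z)]
  rfl

theorem toRel_surjective : Function.Surjective (toRel 𝒪 R) := by
  intro v
  obtain ⟨c, rfl⟩ := Submodule.Quotient.mk_surjective _ v
  obtain ⟨z, rfl⟩ := (maximalIdeal R).toCotangent_surjective c
  exact ⟨z, rfl⟩

theorem toRel_eq_zero_iff (z : maximalIdeal R) :
    toRel 𝒪 R z = 0 ↔
      (z : R) ∈ Ideal.map (algebraMap 𝒪 R) (maximalIdeal 𝒪) ⊔ maximalIdeal R ^ 2 := by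
  unfold toRel
  rw [Submodule.Quotient.mk_eq_zero]
  constructor
  · rintro ⟨w, hw, hwz⟩
    rw [Ideal.toCotangent_eq] at hwz
    have : (z : R) = w - (w - z) := by ring
    rw [this]
    exact Ideal.sub_mem _ (Ideal.mem_sup_left hw) (Ideal.mem_sup_right hwz)
  · intro hz
    obtain ⟨a, ha, b, hb, hab⟩ := Submodule.mem_sup.mp hz
    have ham : a ∈ maximalIdeal R := by
      have : a = z - b := by rw [← hab]; ring
      rw [this]
      exact Ideal.sub_mem _ z.2 (Ideal.pow_le_self two_ne_zero hb)
    refine ⟨⟨a, ham⟩, ha, ?_⟩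
    rw [Ideal.toCotangent_eq]
    have : ((⟨a, ham⟩ : maximalIdeal R) : R) - z = -b := by
      rw [← hab]; simp
    rw [this]
    exact Ideal.neg_mem_iff _ |>.mpr hb

theorem toRel_of_mem_map (z : maximalIdeal R)
    (hz : (z : R) ∈ Ideal.map (algebraMap 𝒪 R) (maximalIdeal 𝒪)) : toRel 𝒪 R z = 0 :=
  (toRel_eq_zero_iff z).mpr (Ideal.mem_sup_left hz)

theorem toRel_of_mem_sq (z : maximalIdeal R) (hz : (z : R) ∈ maximalIdeal R ^ 2) :
    toRel 𝒪 R z = 0 :=
  (toRel_eq_zero_iff z).mpr (Ideal.mem_sup_right hz)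

end Setup

section Hom

variable {𝒪 : Type} [CommRing 𝒪] [IsLocalRing 𝒪]
variable {R : Type} [CommRing R] [IsLocalRing R] [Algebra 𝒪 R] [IsLocalHom (algebraMap 𝒪 R)]

theorem residueFieldMap_bijective
    (hres : Function.Surjective (IsLocalRing.residue R ∘ algebraMap 𝒪 R)) :
    Function.Bijective (ResidueField.map (algebraMap 𝒪 R)) := by
  refine ⟨RingHom.injective _, fun y => ?_⟩
  obtain ⟨a, ha⟩ := hres y
  exact ⟨residue 𝒪 a, by rw [ResidueField.map_residue]; exact ha⟩

/-- The identification of residue fields `k_𝒪 ≃ k_R`. -/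
def resEquiv (hres : Function.Surjective (IsLocalRing.residue R ∘ algebraMap 𝒪 R)) :
    ResidueField 𝒪 ≃+* ResidueField R :=
  RingEquiv.ofBijective (ResidueField.map (algebraMap 𝒪 R)) (residueFieldMap_bijective hres)

theorem resEquiv_residue
    (hres : Function.Surjective (IsLocalRing.residue R ∘ algebraMap 𝒪 R)) (a : 𝒪) :
    resEquiv hres (residue 𝒪 a) = residue R (algebraMap 𝒪 R a) := by
  simp [resEquiv, ResidueField.map_residue]

/-- The reduction map `R → k_𝒪`. -/
def redMap (hres : Function.Surjective (IsLocalRing.residue R ∘ algebraMap 𝒪 R)) :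
    R →+* ResidueField 𝒪 :=
  ((resEquiv hres).symm : ResidueField R →+* ResidueField 𝒪).comp (residue R)

theorem redMap_apply
    (hres : Function.Surjective (IsLocalRing.residue R ∘ algebraMap 𝒪 R)) (x : R) :
    redMap hres x = (resEquiv hres).symm (residue R x) := rfl

theorem redMap_algebraMap
    (hres : Function.Surjective (IsLocalRing.residue R ∘ algebraMap 𝒪 R)) (a : 𝒪) :
    redMap hres (algebraMap 𝒪 R a) = residue 𝒪 a := by
  rw [redMap_apply, ← resEquiv_residue hres, RingEquiv.symm_apply_apply]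

theorem redMap_eq_zero_iff
    (hres : Function.Surjective (IsLocalRing.residue R ∘ algebraMap 𝒪 R)) (x : R) :
    redMap hres x = 0 ↔ x ∈ maximalIdeal R := by
  rw [redMap_apply, map_eq_zero_iff _ (resEquiv hres).symm.injective, residue_eq_zero_iff]

theorem sub_algebraMap_mem
    (hres : Function.Surjective (IsLocalRing.residue R ∘ algebraMap 𝒪 R)) {x : R} {a : 𝒪}
    (ha : residue 𝒪 a = redMap hres x) : x - algebraMap 𝒪 R a ∈ maximalIdeal R := by
  rw [← redMap_eq_zero_iff hres, map_sub, redMap_algebraMap, ha, sub_self]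

/-- A set-theoretic lift `R → 𝒪` of the reduction map. -/
def liftO (hres : Function.Surjective (IsLocalRing.residue R ∘ algebraMap 𝒪 R)) (x : R) : 𝒪 :=
  Classical.choose (residue_surjective (redMap hres x))

theorem residue_liftO
    (hres : Function.Surjective (IsLocalRing.residue R ∘ algebraMap 𝒪 R)) (x : R) :
    residue 𝒪 (liftO hres x) = redMap hres x :=
  Classical.choose_spec (residue_surjective (redMap hres x))

/-- The universal relative "derivation" `R → 𝔪_R / (𝔪_𝒪 R + 𝔪_R²)`. -/
def relD (hres : Function.Surjective (IsLocalRing.residue R ∘ algebraMap 𝒪 R)) (x : R) :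
    RelCotangent 𝒪 R :=
  toRel 𝒪 R ⟨x - algebraMap 𝒪 R (liftO hres x), sub_algebraMap_mem hres (residue_liftO hres x)⟩

theorem algebraMap_mem_map_of_residue_eq_zero {d : 𝒪} (hd : residue 𝒪 d = 0) :
    algebraMap 𝒪 R d ∈ Ideal.map (algebraMap 𝒪 R) (maximalIdeal 𝒪) :=
  Ideal.mem_map_of_mem _ ((residue_eq_zero_iff d).mp hd)

/-- `relD` may be computed with any lift. -/
theorem relD_eq (hres : Function.Surjective (IsLocalRing.residue R ∘ algebraMap 𝒪 R))
    {x : R} {a : 𝒪} (ha : residue 𝒪 a = redMap hres x) :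
    relD hres x = toRel 𝒪 R ⟨x - algebraMap 𝒪 R a, sub_algebraMap_mem hres ha⟩ := by
  unfold relD
  rw [← sub_eq_zero, ← toRel_sub]
  apply toRel_of_mem_map
  have h0 : residue 𝒪 (a - liftO hres x) = 0 := by
    rw [map_sub, ha, residue_liftO, sub_self]
  have := algebraMap_mem_map_of_residue_eq_zero (R := R) h0
  convert this using 1
  simp only [AddSubgroupClass.coe_sub, map_sub]
  ring

theorem relD_of_mem (hres : Function.Surjective (IsLocalRing.residue R ∘ algebraMap 𝒪 R))
    (z : maximalIdeal R) : relD hres (z : R) = toRel 𝒪 R z := by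
  have h0 : residue 𝒪 (0 : 𝒪) = redMap hres (z : R) := by
    rw [map_zero, eq_comm, redMap_eq_zero_iff]; exact z.2
  rw [relD_eq hres h0]
  congr 1
  ext
  simp

theorem relD_algebraMap (hres : Function.Surjective (IsLocalRing.residue R ∘ algebraMap 𝒪 R))
    (a : 𝒪) : relD hres (algebraMap 𝒪 R a) = 0 := by
  rw [relD_eq hres (redMap_algebraMap hres a).symm]
  have : (⟨algebraMap 𝒪 R a - algebraMap 𝒪 R a,
      sub_algebraMap_mem hres (redMap_algebraMap hres a).symm⟩ : maximalIdeal R) = 0 := by
    ext; simp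
  rw [this, toRel_zero]

theorem relD_add (hres : Function.Surjective (IsLocalRing.residue R ∘ algebraMap 𝒪 R))
    (x y : R) : relD hres (x + y) = relD hres x + relD hres y := by
  have ha : residue 𝒪 (liftO hres x + liftO hres y) = redMap hres (x + y) := by
    rw [map_add, map_add, residue_liftO, residue_liftO]
  rw [relD_eq hres ha]
  unfold relD
  rw [← toRel_add]
  congr 1
  ext
  simp only [map_add, AddMemClass.mk_add_mk]
  ring

theorem relD_mul (hres : Function.Surjective (IsLocalRing.residue R ∘ algebraMap 𝒪 R))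
    (x y : R) :
    relD hres (x * y) = residue R x • relD hres y + residue R y • relD hres x := by
  have ha : residue 𝒪 (liftO hres x * liftO hres y) = redMap hres (x * y) := by
    rw [map_mul, map_mul, residue_liftO, residue_liftO]
  rw [relD_eq hres ha]
  have hx := sub_algebraMap_mem hres (residue_liftO hres x)
  have hy := sub_algebraMap_mem hres (residue_liftO hres y)
  have hxres : residue R x = residue R (algebraMap 𝒪 R (liftO hres x)) := by
    rw [← sub_eq_zero, ← map_sub, residue_eq_zero_iff]; exact hx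
  rw [hxres]
  unfold relD
  rw [← toRel_smul, ← toRel_smul, ← toRel_add]
  congr 1
  ext
  simp only [map_mul, Submodule.coe_add, Submodule.coe_smul, smul_eq_mul]
  ring

theorem relD_one (hres : Function.Surjective (IsLocalRing.residue R ∘ algebraMap 𝒪 R)) :
    relD hres (1 : R) = 0 := by
  have := relD_algebraMap hres (1 : 𝒪)
  rwa [map_one] at this

theorem relD_zero (hres : Function.Surjective (IsLocalRing.residue R ∘ algebraMap 𝒪 R)) :
    relD hres (0 : R) = 0 := by
  have := relD_algebraMap hres (0 : 𝒪)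
  rwa [map_zero] at this

theorem resEquiv_symm_residue
    (hres : Function.Surjective (IsLocalRing.residue R ∘ algebraMap 𝒪 R)) (x : R) :
    (resEquiv hres).symm (residue R x) = redMap hres x := rfl

/-- The `𝒪`-algebra map `R → k[ε]` attached to a functional on the relative cotangent space. -/
def homOfDual (hres : Function.Surjective (IsLocalRing.residue R ∘ algebraMap 𝒪 R))
    (l : Module.Dual (ResidueField R) (RelCotangent 𝒪 R)) :
    @AlgHom 𝒪 R (DualNumber (ResidueField 𝒪)) _ _ _ _ (Fermat.Agent.S53.dualAlgebra 𝒪) :=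
  letI := Fermat.Agent.S53.dualAlgebra 𝒪
  { toFun := fun x => TrivSqZeroExt.inl (redMap hres x) +
      TrivSqZeroExt.inr ((resEquiv hres).symm (l (relD hres x)))
    map_one' := by
      rw [relD_one, map_zero, map_zero, map_one, TrivSqZeroExt.inr_zero, add_zero]
      rfl
    map_mul' := fun x y => by
      apply TrivSqZeroExt.ext
      · simp
      · simp only [relD_mul, map_add, map_smul, smul_eq_mul, map_mul, resEquiv_symm_residue,
          TrivSqZeroExt.snd_add, TrivSqZeroExt.snd_inl, TrivSqZeroExt.snd_inr, zero_add,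
          TrivSqZeroExt.snd_mul, TrivSqZeroExt.fst_add, TrivSqZeroExt.fst_inl,
          TrivSqZeroExt.fst_inr, add_zero, MulOpposite.smul_eq_mul_unop, MulOpposite.unop_op]
        ring
    map_zero' := by
      rw [relD_zero, map_zero, map_zero, map_zero, TrivSqZeroExt.inr_zero, add_zero]
      rfl
    map_add' := fun x y => by
      apply TrivSqZeroExt.ext
      · simp
      · simp [relD_add]
    commutes' := fun a => by
      rw [relD_algebraMap, map_zero, map_zero, TrivSqZeroExt.inr_zero, add_zero,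
        redMap_algebraMap, Fermat.Agent.S53.dualAlgebra_algebraMap_apply,
        TrivSqZeroExt.algebraMap_eq_inl] }

theorem homOfDual_apply (hres : Function.Surjective (IsLocalRing.residue R ∘ algebraMap 𝒪 R))
    (l : Module.Dual (ResidueField R) (RelCotangent 𝒪 R)) (x : R) :
    homOfDual hres l x = TrivSqZeroExt.inl (redMap hres x) +
      TrivSqZeroExt.inr ((resEquiv hres).symm (l (relD hres x))) := rfl

theorem homOfDual_injective
    (hres : Function.Surjective (IsLocalRing.residue R ∘ algebraMap 𝒪 R)) :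
    Function.Injective (homOfDual (𝒪 := 𝒪) (R := R) hres) := by
  intro l l' h
  apply LinearMap.ext
  intro v
  obtain ⟨z, rfl⟩ := toRel_surjective v
  have h1 := congrArg TrivSqZeroExt.snd
    (congrArg (fun φ : @AlgHom 𝒪 R (DualNumber (ResidueField 𝒪)) _ _ _ _
      (Fermat.Agent.S53.dualAlgebra 𝒪) => φ (z : R)) h)
  simp only [homOfDual_apply, TrivSqZeroExt.snd_add, TrivSqZeroExt.snd_inl,
    TrivSqZeroExt.snd_inr, zero_add, relD_of_mem] at h1
  exact (resEquiv hres).symm.injective h1

end Hom

section Main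

variable {𝒪 : Type} [CommRing 𝒪] [IsLocalRing 𝒪] [IsNoetherianRing 𝒪]
  [IsAdicComplete (maximalIdeal 𝒪) 𝒪]
variable {R : Type} [CommRing R] [IsLocalRing R] [IsNoetherianRing R]
  [IsAdicComplete (maximalIdeal R) R] [Algebra 𝒪 R] [IsLocalHom (algebraMap 𝒪 R)]

/-- If `x i ∈ 𝔪_R` have classes spanning the relative cotangent space, then they generate
`𝔪_R` modulo `𝔪_𝒪 R + 𝔪_R²`. -/
theorem maximalIdeal_le_of_span_toRel_eq_top {r : ℕ} (x : Fin r → maximalIdeal R)
    (hspan : Submodule.span (ResidueField R) (Set.range fun i => toRel 𝒪 R (x i)) = ⊤) :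
    maximalIdeal R ≤ Ideal.map (algebraMap 𝒪 R) (maximalIdeal 𝒪) ⊔
      Ideal.span (Set.range fun i => (x i : R)) ⊔ maximalIdeal R ^ 2 := by
  set J : Ideal R := Ideal.map (algebraMap 𝒪 R) (maximalIdeal 𝒪) ⊔
      Ideal.span (Set.range fun i => (x i : R)) ⊔ maximalIdeal R ^ 2 with hJ
  have hle : Ideal.map (algebraMap 𝒪 R) (maximalIdeal 𝒪) ⊔ maximalIdeal R ^ 2 ≤ J := by
    rw [hJ]
    exact sup_le (le_sup_of_le_left le_sup_left) le_sup_right
  have hxJ : ∀ i, (x i : R) ∈ J := fun i =>
    Ideal.mem_sup_left (Ideal.mem_sup_right (Ideal.subset_span ⟨i, rfl⟩))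
  have key : ∀ w ∈ Submodule.span (ResidueField R) (Set.range fun i => toRel 𝒪 R (x i)),
      ∀ z : maximalIdeal R, toRel 𝒪 R z = w → (z : R) ∈ J := by
    intro w hw
    induction hw using Submodule.span_induction with
    | mem w hw =>
      obtain ⟨i, rfl⟩ := hw
      intro z hz
      have h0 : toRel 𝒪 R (z - x i) = 0 := by rw [toRel_sub, hz, sub_self]
      have h1 := hle ((toRel_eq_zero_iff _).mp h0)
      have : (z : R) = ((z - x i : maximalIdeal R) : R) + x i := by simp
      rw [this]
      exact Ideal.add_mem _ h1 (hxJ i)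
    | zero =>
      intro z hz
      exact hle ((toRel_eq_zero_iff _).mp hz)
    | add w₁ w₂ _ _ ih₁ ih₂ =>
      intro z hz
      obtain ⟨z₁, hz₁⟩ := toRel_surjective w₁
      have h2 : toRel 𝒪 R (z - z₁) = w₂ := by rw [toRel_sub, hz, hz₁, add_sub_cancel_left]
      have : (z : R) = z₁ + ((z - z₁ : maximalIdeal R) : R) := by simp
      rw [this]
      exact Ideal.add_mem _ (ih₁ z₁ hz₁) (ih₂ _ h2)
    | smul c w₁ _ ih =>
      intro z hz
      obtain ⟨z₁, hz₁⟩ := toRel_surjective w₁
      obtain ⟨r₀, rfl⟩ := residue_surjective c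
      have h0 : toRel 𝒪 R (z - r₀ • z₁) = 0 := by
        rw [toRel_sub, toRel_smul, hz, hz₁, sub_self]
      have h1 := hle ((toRel_eq_zero_iff _).mp h0)
      have : (z : R) = ((z - r₀ • z₁ : maximalIdeal R) : R) + r₀ * z₁ := by simp
      rw [this]
      exact Ideal.add_mem _ h1 (Ideal.mul_mem_left _ _ (ih z₁ hz₁))
  intro y hy
  exact key (toRel 𝒪 R ⟨y, hy⟩) (by rw [hspan]; exact Submodule.mem_top) ⟨y, hy⟩ rfl

/-- **Cotangent criterion.** If the relative cotangent space of `R` over `𝒪` has dimension at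
most `r`, then `R` is a quotient of `𝒪⟦X₁,…,X_r⟧`. -/
theorem exists_surjective_of_finrank_relCotangent_le
    (hres : Function.Surjective (IsLocalRing.residue R ∘ algebraMap 𝒪 R)) (r : ℕ)
    (hd : Module.finrank (ResidueField R) (RelCotangent 𝒪 R) ≤ r) :
    ∃ γ : MvPowerSeries (Fin r) 𝒪 →ₐ[𝒪] R, Function.Surjective γ := by
  classical
  set d := Module.finrank (ResidueField R) (RelCotangent 𝒪 R) with hd'
  let b := Module.finBasis (ResidueField R) (RelCotangent 𝒪 R)
  let v : Fin r → RelCotangent 𝒪 R := fun j => if h : (j : ℕ) < d then b ⟨j, h⟩ else 0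
  have hv : Submodule.span (ResidueField R) (Set.range v) = ⊤ := by
    rw [eq_top_iff, ← b.span_eq]
    apply Submodule.span_mono
    rintro _ ⟨i, rfl⟩
    refine ⟨⟨i, lt_of_lt_of_le i.2 hd⟩, ?_⟩
    simp only [v]
    rw [dif_pos i.2]
  choose x hx using fun j => toRel_surjective (𝒪 := 𝒪) (R := R) (v j)
  have hspan : Submodule.span (ResidueField R) (Set.range fun i => toRel 𝒪 R (x i)) = ⊤ := by
    have : (fun i => toRel 𝒪 R (x i)) = v := funext hx
    rw [this, hv]
  obtain ⟨φ, hφ, -⟩ := Fermat.Agent.S53.H596.exists_surjective_algHom_of_generators_mod_sq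
    (R := 𝒪) (A := R) inferInstance hres (fun i => (x i : R)) (fun i => (x i).2)
    (maximalIdeal_le_of_span_toRel_eq_top x hspan)
  exact ⟨φ, hφ⟩

/-- **Counting criterion.** If the `𝒪`-algebra maps `R → k[ε]` inject into a finite set with at
most `|k| ^ r` elements, then `R` is a quotient of `𝒪⟦X₁,…,X_r⟧`. -/
theorem exists_surjective_of_injective_algHom [Finite (ResidueField 𝒪)]
    (hres : Function.Surjective (IsLocalRing.residue R ∘ algebraMap 𝒪 R)) (r : ℕ)
    (T : Type) [Finite T] (hT : Nat.card T ≤ Nat.card (ResidueField 𝒪) ^ r)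
    (e : (@AlgHom 𝒪 R (DualNumber (ResidueField 𝒪)) _ _ _ _
      (Fermat.Agent.S53.dualAlgebra 𝒪)) → T) (he : Function.Injective e) :
    ∃ γ : MvPowerSeries (Fin r) 𝒪 →ₐ[𝒪] R, Function.Surjective γ := by
  apply exists_surjective_of_finrank_relCotangent_le hres r
  have hfinK : Finite (ResidueField R) := Finite.of_equiv _ (resEquiv hres).toEquiv
  have hcardK : Nat.card (ResidueField R) = Nat.card (ResidueField 𝒪) :=
    (Nat.card_congr (resEquiv hres).toEquiv).symm
  have h1 : Nat.card (Module.Dual (ResidueField R) (RelCotangent 𝒪 R)) ≤ Nat.card T :=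
    Nat.card_le_card_of_injective (fun l => e (homOfDual hres l))
      (he.comp (homOfDual_injective hres))
  have h2 : Nat.card (Module.Dual (ResidueField R) (RelCotangent 𝒪 R)) =
      Nat.card (ResidueField 𝒪) ^ Module.finrank (ResidueField R) (RelCotangent 𝒪 R) := by
    rw [Module.natCard_eq_pow_finrank (K := ResidueField R), Subspace.dual_finrank_eq, hcardK]
  have hk : 1 < Nat.card (ResidueField 𝒪) := Finite.one_lt_card
  rw [h2] at h1
  exact (Nat.pow_le_pow_iff_right hk).mp (h1.trans hT)

/-- **Counting criterion, `Nat.card` form.** -/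
theorem exists_surjective_of_card_algHom_le [Finite (ResidueField 𝒪)]
    (hres : Function.Surjective (IsLocalRing.residue R ∘ algebraMap 𝒪 R)) (r : ℕ)
    (hfin : Finite (@AlgHom 𝒪 R (DualNumber (ResidueField 𝒪)) _ _ _ _
      (Fermat.Agent.S53.dualAlgebra 𝒪)))
    (hcard : Nat.card (@AlgHom 𝒪 R (DualNumber (ResidueField 𝒪)) _ _ _ _
      (Fermat.Agent.S53.dualAlgebra 𝒪)) ≤ Nat.card (ResidueField 𝒪) ^ r) :
    ∃ γ : MvPowerSeries (Fin r) 𝒪 →ₐ[𝒪] R, Function.Surjective γ :=
  exists_surjective_of_injective_algHom hres r _ hcard id Function.injective_id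

end Main

end

end Fermat.Agent.S56.H134
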