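import Fermat.Agent.S56.Spec
import Fermat.Agent.S56.H134.Cotangent

/-!
# S56, piece P1: `PowerSeriesSurjStatement`

At most `|k| ^ r` tangent vectors `R → k[ε]` ⇒ `𝒪⟦X₁,…,X_r⟧ ↠ R`.
Proof in `Fermat/Agent/S56/H134/Cotangent.lean` (relative cotangent space + complete Nakayama
package of S53 `H596/PowerSeriesCNL.lean`).
-/

set_option autoImplicit false

open IsLocalRing

namespace Fermat.Agent.S56.H134

/-- **P1** (`PowerSeriesSurjStatement`), verbatim. -/
theorem powerSeriesSurj : Fermat.Agent.S56.PowerSeriesSurjStatement := by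
  intro 𝒪 _ _ _ _ _ R _ _ _ _ _ _ hres r hfin hcard
  exact exists_surjective_of_card_algHom_le hres r hfin hcard

end Fermat.Agent.S56.H134
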