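import Mathlib

/-!
# S56 / FL-D, step II: the derivative of the minimal polynomial at a generator is intrinsic

`B` a local domain, an `A`-algebra generated by `x` and also by `y`, with "minimal polynomials"
`P`, `Q` (generators of the kernels of evaluation).  Then `P'(x)` and `Q'(y)` are associated.
(This is the invariance of the different of a monogenic extension, proved by the chain rule; no
trace forms needed.)
-/

set_option autoImplicit false
set_option linter.unusedSectionVars false

namespace Fermat.Agent.S56.H134.FLD

open Polynomial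

variable {A B : Type*} [CommRing A] [CommRing B] [Algebra A B]

/-- One direction of the comparison: `P'(x) ∣ Q'(y)`. -/
theorem aeval_derivative_dvd [IsLocalRing B] {x y : B} {P Q f g : A[X]}
    (hP : aeval x P = 0) (hPker : ∀ h : A[X], aeval x h = 0 → P ∣ h)
    (hQ : aeval y Q = 0)
    (hf : aeval x f = y) (hg : aeval y g = x) :
    aeval x (derivative P) ∣ aeval y (derivative Q) := by
  by_cases hu : IsUnit (aeval x (derivative P))
  · exact hu.dvd
  -- `Q ∘ f = P * S`
  have h1 : aeval x (Q.comp f) = 0 := by rw [aeval_comp, hf, hQ]
  obtain ⟨S, hS⟩ := hPker _ h1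
  -- `g ∘ f - X = P * R`
  have h2 : aeval x (g.comp f - X) = 0 := by rw [map_sub, aeval_comp, hf, hg, aeval_X, sub_self]
  obtain ⟨R, hR⟩ := hPker _ h2
  -- derivatives
  have hS' := congrArg (fun q => aeval x (derivative q)) hS
  have hR' := congrArg (fun q => aeval x (derivative q)) hR
  simp only [derivative_comp, derivative_mul, derivative_X, map_mul, map_add,
    map_sub, map_one, aeval_comp, hf, hP, zero_mul, add_zero] at hS' hR'
  -- `f'(x)` is a unit
  have hnu : aeval x (derivative P) * aeval x R ∈ IsLocalRing.maximalIdeal B :=
    Ideal.mul_mem_right _ _ ((IsLocalRing.mem_maximalIdeal _).mpr hu)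
  have hunit : IsUnit (aeval x (derivative f) * aeval y (derivative g)) := by
    have h3 : aeval x (derivative f) * aeval y (derivative g) =
        1 + aeval x (derivative P) * aeval x R := by
      rw [← hR']; ring
    rw [h3]
    by_contra hcon
    have h4 : (1 : B) ∈ IsLocalRing.maximalIdeal B := by
      have h5 := Ideal.sub_mem _ ((IsLocalRing.mem_maximalIdeal _).mpr hcon) hnu
      rwa [add_sub_cancel_right] at h5
    exact (IsLocalRing.maximalIdeal.isMaximal B).ne_top
      ((Ideal.eq_top_iff_one _).mpr h4)
  have hfu : IsUnit (aeval x (derivative f)) := isUnit_of_mul_isUnit_left hunit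
  obtain ⟨u, hu'⟩ := hfu
  refine ⟨(↑u⁻¹ : B) * aeval x S, ?_⟩
  have h6 : aeval y (derivative Q) = ↑u⁻¹ * (aeval x (derivative f) * aeval y (derivative Q)) := by
    rw [← hu', ← mul_assoc, Units.inv_mul, one_mul]
  rw [h6, hS']
  ring

/-- **Invariance of the different of a monogenic extension.**  If `x` and `y` both generate the
local domain `B` over `A`, with minimal polynomials `P` and `Q`, then `P'(x)` and `Q'(y)` are
associated. -/
theorem associated_aeval_derivative [IsLocalRing B] [IsDomain B] {x y : B} {P Q f g : A[X]}
    (hP : aeval x P = 0) (hPker : ∀ h : A[X], aeval x h = 0 → P ∣ h)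
    (hQ : aeval y Q = 0) (hQker : ∀ h : A[X], aeval y h = 0 → Q ∣ h)
    (hf : aeval x f = y) (hg : aeval y g = x) :
    Associated (aeval x (derivative P)) (aeval y (derivative Q)) :=
  associated_of_dvd_dvd (aeval_derivative_dvd hP hPker hQ hf hg)
    (aeval_derivative_dvd hQ hQker hP hg hf)

end Fermat.Agent.S56.H134.FLD
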