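import Fermat.Agent.S56.H134.FLDEis
import Fermat.Agent.S56.H134.FLDGen

/-!
# S56 / FL-D: the different bound by Eisenstein perturbation

`A` a DVR of mixed characteristic `(0, p)`, `v_A(p) = e_K`, `G` monic Eisenstein of degree `e`,
`B = A[X]/(G)`, `Π` its root.  Let `1 ≤ k < e`, `p ∤ k`, `G̃ := G + p X^k`, `C = A[X]/(G̃)`.
There is a canonical `A`-algebra map `η : B → C / (p Π̃^k)`, `Π ↦ Π̃` (`perturbHom`).

**Theorem** (`val_derivative_le`): if the existence of `η` forces `B ≅ C` as `A`-algebras (this is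
what the lifting lemma for a finite flat group scheme killed by `p` gives when
`k (p - 1) > e e_K`), then `v_B(G'(Π)) ≤ e e_K + k - 1`.
-/

set_option autoImplicit false
set_option linter.unusedSectionVars false
set_option linter.style.haveILetI false

namespace Fermat.Agent.S56.H134.FLD

open Polynomial IsLocalRing

noncomputable section

variable {A : Type*} [CommRing A] [IsDomain A] [IsDiscreteValuationRing A]

/-- The perturbed polynomial `G + p X^k`. -/
def perturb (G : A[X]) (p k : ℕ) : A[X] := G + C (p : A) * X ^ k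

section Perturb

variable {G : A[X]} {p k : ℕ}

theorem perturb_coeff (G : A[X]) (p k j : ℕ) :
    (perturb G p k).coeff j = G.coeff j + if j = k then (p : A) else 0 := by
  unfold perturb
  rw [coeff_add, coeff_C_mul, coeff_X_pow]
  split_ifs <;> simp

theorem perturb_coeff_of_ne (G : A[X]) (p k : ℕ) {j : ℕ} (hj : j ≠ k) :
    (perturb G p k).coeff j = G.coeff j := by
  rw [perturb_coeff, if_neg hj, add_zero]

theorem perturb_coeff_self (G : A[X]) (p k : ℕ) :
    (perturb G p k).coeff k = G.coeff k + (p : A) := by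
  rw [perturb_coeff, if_pos rfl]

theorem natDegree_perturb (hk : k < G.natDegree) : (perturb G p k).natDegree = G.natDegree := by
  unfold perturb
  apply natDegree_add_eq_left_of_natDegree_lt
  calc (C (p : A) * X ^ k).natDegree ≤ k := natDegree_C_mul_X_pow_le _ _
    _ < G.natDegree := hk

theorem monic_perturb (hG : G.Monic) (hk : k < G.natDegree) : (perturb G p k).Monic := by
  unfold perturb
  apply hG.add_of_left
  calc (C (p : A) * X ^ k).degree ≤ (k : WithBot ℕ) := degree_C_mul_X_pow_le _ _
    _ < (G.natDegree : WithBot ℕ) := by exact_mod_cast hk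
    _ = G.degree := (degree_eq_natDegree hG.ne_zero).symm

theorem isEis_perturb (hG : IsEis G) (hpA : (p : A) ∈ maximalIdeal A) (hk0 : 0 < k)
    (hk : k < G.natDegree) : IsEis (perturb G p k) := by
  have hdeg := natDegree_perturb (p := p) hk
  have hmon := monic_perturb (p := p) hG.monic hk
  refine ⟨hmon, ⟨?_, ?_, ?_⟩, hdeg ▸ hG.pos⟩
  · rw [hmon.leadingCoeff]
    exact fun h => (IsLocalRing.maximalIdeal.isMaximal A).ne_top ((Ideal.eq_top_iff_one _).mpr h)
  · intro j hj
    rw [hdeg] at hj
    rw [perturb_coeff]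
    refine Ideal.add_mem _ (hG.coeff_mem hj) ?_
    split_ifs
    · exact hpA
    · exact Ideal.zero_mem _
  · rw [perturb_coeff_of_ne _ _ _ hk0.ne]
    exact hG.eis.notMem

end Perturb

section Hom

variable (G : A[X]) (p k : ℕ)

/-- The ideal `(p Π̃^k)` of `C = A[X]/(G + p X^k)`. -/
def perturbIdeal : Ideal (AdjoinRoot (perturb G p k)) :=
  Ideal.span {(p : AdjoinRoot (perturb G p k)) * AdjoinRoot.root (perturb G p k) ^ k}

theorem aeval_root_perturb :
    aeval (AdjoinRoot.root (perturb G p k)) G =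
      -((p : AdjoinRoot (perturb G p k)) * AdjoinRoot.root (perturb G p k) ^ k) := by
  have h1 : aeval (AdjoinRoot.root (perturb G p k)) (perturb G p k) = 0 := by
    rw [AdjoinRoot.aeval_eq, AdjoinRoot.mk_self]
  unfold perturb at h1
  rw [map_add, map_mul, map_pow, aeval_X, aeval_C] at h1
  have h2 : (algebraMap A (AdjoinRoot (G + C (p : A) * X ^ k))) (p : A) =
      (p : AdjoinRoot (G + C (p : A) * X ^ k)) := map_natCast _ p
  rw [h2] at h1
  exact eq_neg_of_add_eq_zero_left h1

/-- The canonical `A`-algebra map `η : A[X]/(G) → (A[X]/(G + p X^k)) / (p Π̃^k)`, `Π ↦ Π̃`. -/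
def perturbHom : AdjoinRoot G →ₐ[A] (AdjoinRoot (perturb G p k) ⧸ perturbIdeal G p k) :=
  AdjoinRoot.liftAlgHom G (Algebra.ofId A _)
    (Ideal.Quotient.mk (perturbIdeal G p k) (AdjoinRoot.root (perturb G p k))) (by
      have h1 : eval₂ (↑(Algebra.ofId A (AdjoinRoot (perturb G p k) ⧸ perturbIdeal G p k)))
          (Ideal.Quotient.mk (perturbIdeal G p k) (AdjoinRoot.root (perturb G p k))) G =
          aeval (Ideal.Quotient.mkₐ A (perturbIdeal G p k) (AdjoinRoot.root (perturb G p k))) G :=
        rfl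
      rw [h1, aeval_algHom_apply, aeval_root_perturb, map_neg, neg_eq_zero]
      exact Ideal.Quotient.eq_zero_iff_mem.mpr (Ideal.subset_span rfl))

theorem perturbHom_root :
    perturbHom G p k (AdjoinRoot.root G) =
      Ideal.Quotient.mk (perturbIdeal G p k) (AdjoinRoot.root (perturb G p k)) :=
  AdjoinRoot.liftAlgHom_root _ _ _ _

end Hom

section Transport

variable {G G' : A[X]} (hG : IsEis G) (hG' : IsEis G')

/-- An `A`-algebra isomorphism of Eisenstein extensions preserves the valuation. -/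
theorem val_algEquiv (e : AdjoinRoot G ≃ₐ[A] AdjoinRoot G') (b : AdjoinRoot G) :
    hG'.val (e b) = hG.val b := by
  by_cases hb : b = 0
  · rw [hb, map_zero, hG.val.map_zero, hG'.val.map_zero]
  · letI := hG.isDomain
    letI := hG.isDiscreteValuationRing
    letI := hG'.isDomain
    letI := hG'.isDiscreteValuationRing
    obtain ⟨n, u, hu⟩ := IsDiscreteValuationRing.eq_unit_mul_pow_irreducible hb hG.root_irreducible
    have hirr : Irreducible (e (AdjoinRoot.root G)) :=
      (MulEquiv.irreducible_iff e).mpr hG.root_irreducible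
    have h1 : hG.val b = n := by
      rw [hu]
      exact IsDiscreteValuationRing.addVal_def' u hG.root_irreducible n
    have h2 : hG'.val (e b) = n := by
      rw [hu, map_mul, map_pow]
      exact IsDiscreteValuationRing.addVal_def' (Units.map (e : AdjoinRoot G →* AdjoinRoot G') u)
        hirr n
    rw [h1, h2]

/-- The derivative of the Eisenstein polynomial at the root has the same valuation in two
isomorphic Eisenstein extensions. -/
theorem val_derivative_eq_of_algEquiv (e : AdjoinRoot G ≃ₐ[A] AdjoinRoot G') :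
    hG.val (aeval (AdjoinRoot.root G) (derivative G)) =
      hG'.val (aeval (AdjoinRoot.root G') (derivative G')) := by
  letI := hG.isDomain
  letI := hG.isLocalRing
  -- the second generator of `B`
  set x : AdjoinRoot G := e.symm (AdjoinRoot.root G') with hx
  obtain ⟨f, hf⟩ := AdjoinRoot.mk_surjective x
  obtain ⟨g, hg⟩ := AdjoinRoot.mk_surjective (e (AdjoinRoot.root G))
  have hP : aeval (AdjoinRoot.root G) G = 0 := by rw [AdjoinRoot.aeval_eq, AdjoinRoot.mk_self]
  have hPker : ∀ h : A[X], aeval (AdjoinRoot.root G) h = 0 → G ∣ h := by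
    intro h hh
    rwa [AdjoinRoot.aeval_eq, AdjoinRoot.mk_eq_zero] at hh
  have haev : ∀ h : A[X], aeval x h = e.symm (aeval (AdjoinRoot.root G') h) := by
    intro h
    rw [hx]
    exact aeval_algHom_apply (e.symm : AdjoinRoot G' →ₐ[A] AdjoinRoot G) _ h
  have hQ : aeval x G' = 0 := by
    rw [haev, AdjoinRoot.aeval_eq, AdjoinRoot.mk_self, map_zero]
  have hQker : ∀ h : A[X], aeval x h = 0 → G' ∣ h := by
    intro h hh
    rw [haev, map_eq_zero_iff _ e.symm.injective, AdjoinRoot.aeval_eq,
      AdjoinRoot.mk_eq_zero] at hh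
    exact hh
  have hf' : aeval (AdjoinRoot.root G) f = x := by rw [AdjoinRoot.aeval_eq, hf]
  have hg' : aeval x g = AdjoinRoot.root G := by
    rw [haev, AdjoinRoot.aeval_eq, hg, AlgEquiv.symm_apply_apply]
  have hassoc := associated_aeval_derivative hP hPker hQ hQker hf' hg'
  rw [hG.val_eq_iff_associated.mpr hassoc, haev, ← val_algEquiv hG hG' e,
    AlgEquiv.apply_symm_apply]

end Transport

section Bound

theorem addVal_natCast_eq_zero {p k : ℕ} (hp : p.Prime) (hpA : (p : A) ∈ maximalIdeal A)
    (hpk : ¬ p ∣ k) : IsDiscreteValuationRing.addVal A (k : A) = 0 := by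
  rw [IsDiscreteValuationRing.addVal_eq_zero_iff]
  by_contra hnu
  have hk : (k : A) ∈ maximalIdeal A := (IsLocalRing.mem_maximalIdeal _).mpr hnu
  have hcop : IsCoprime (k : ℤ) (p : ℤ) :=
    Nat.isCoprime_iff_coprime.mpr ((Nat.Prime.coprime_iff_not_dvd hp).mpr hpk).symm
  obtain ⟨a, b, hab⟩ := hcop
  have h1 : (a : A) * (k : A) + (b : A) * (p : A) = 1 := by
    exact_mod_cast congrArg (Int.cast : ℤ → A) hab
  have h2 : (1 : A) ∈ maximalIdeal A :=
    h1 ▸ Ideal.add_mem _ (Ideal.mul_mem_left _ _ hk) (Ideal.mul_mem_left _ _ hpA)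
  exact (IsLocalRing.maximalIdeal.isMaximal A).ne_top ((Ideal.eq_top_iff_one _).mpr h2)

theorem enat_lt_of_mul_add_succ_le {e eK m : ℕ} {a : ℕ∞}
    (h : ((e * eK + m + 1 : ℕ) : ℕ∞) ≤ e • a + (m : ℕ∞)) : (eK : ℕ∞) < a := by
  induction a using ENat.recTopCoe with
  | top => exact ENat.natCast_lt_top eK
  | coe n =>
    have h' : e * eK + m + 1 ≤ e * n + m := by
      have : ((e * eK + m + 1 : ℕ) : ℕ∞) ≤ ((e * n + m : ℕ) : ℕ∞) := by
        refine le_trans h (le_of_eq ?_)
        push_cast
        simp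
      exact_mod_cast this
    have h2 : e * eK < e * n := by omega
    exact_mod_cast Nat.lt_of_mul_lt_mul_left h2

variable {G : A[X]} (hG : IsEis G) {p k eK : ℕ}

/-- If all terms of `G'(Π)` have valuation `> N = e e_K + k - 1`, then `G̃'(Π̃)` has valuation
exactly `N`. -/
theorem val_derivative_perturb (hp : p.Prime) (hpA : (p : A) ∈ maximalIdeal A)
    (heK : IsDiscreteValuationRing.addVal A (p : A) = eK)
    (hk0 : 0 < k) (hke : k < G.natDegree) (hpk : ¬ p ∣ k)
    (hterms : ∀ j < G.natDegree, ((G.natDegree * eK + (k - 1) + 1 : ℕ) : ℕ∞) ≤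
      G.natDegree • IsDiscreteValuationRing.addVal A ((derivative G).coeff j) + j) :
    (isEis_perturb (p := p) hG hpA hk0 hke).val
      (aeval (AdjoinRoot.root (perturb G p k)) (derivative (perturb G p k))) =
        ((G.natDegree * eK + (k - 1) : ℕ) : ℕ∞) := by
  set hG' := isEis_perturb (p := p) hG hpA hk0 hke with hG'def
  have hdeg : (perturb G p k).natDegree = G.natDegree := natDegree_perturb hke
  have hkk : k - 1 + 1 = k := Nat.sub_add_cancel hk0
  have hk1 : k - 1 < G.natDegree := by omega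
  have hvk : IsDiscreteValuationRing.addVal A (k : A) = 0 := addVal_natCast_eq_zero hp hpA hpk
  -- coefficient `k` of `G`
  have hcoeffk : (derivative G).coeff (k - 1) = G.coeff k * (k : A) := by
    rw [coeff_derivative, hkk]
    congr 1
    have : ((k - 1 : ℕ) : A) + 1 = ((k - 1 + 1 : ℕ) : A) := by push_cast; ring
    rw [this, hkk]
  have hak : (eK : ℕ∞) < IsDiscreteValuationRing.addVal A (G.coeff k) := by
    have h1 := hterms (k - 1) hk1
    rw [hcoeffk, IsDiscreteValuationRing.addVal_mul, hvk, add_zero] at h1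
    exact enat_lt_of_mul_add_succ_le h1
  have hvsum : IsDiscreteValuationRing.addVal A (G.coeff k + (p : A)) = eK := by
    rw [(IsDiscreteValuationRing.addVal A).map_add_eq_of_lt_right (heK ▸ hak), heK]
  -- coefficients of the derivative of the perturbed polynomial
  have hcoeff_ne : ∀ j, j + 1 ≠ k →
      (derivative (perturb G p k)).coeff j = (derivative G).coeff j := by
    intro j hj
    rw [coeff_derivative, coeff_derivative, perturb_coeff_of_ne _ _ _ hj]
  have hcoeff_eq : (derivative (perturb G p k)).coeff (k - 1) = (G.coeff k + (p : A)) * (k : A) := by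
    rw [coeff_derivative, hkk, perturb_coeff_self]
    congr 1
    have : ((k - 1 : ℕ) : A) + 1 = ((k - 1 + 1 : ℕ) : A) := by push_cast; ring
    rw [this, hkk]
  have hterm_eq : (perturb G p k).natDegree •
      IsDiscreteValuationRing.addVal A ((derivative (perturb G p k)).coeff (k - 1)) +
        ((k - 1 : ℕ) : ℕ∞) = ((G.natDegree * eK + (k - 1) : ℕ) : ℕ∞) := by
    rw [hcoeff_eq, IsDiscreteValuationRing.addVal_mul, hvsum, hvk, add_zero, hdeg]
    push_cast
    simp
  have hterm_ge : ∀ j < (perturb G p k).natDegree, ((G.natDegree * eK + (k - 1) : ℕ) : ℕ∞) ≤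
      (perturb G p k).natDegree •
        IsDiscreteValuationRing.addVal A ((derivative (perturb G p k)).coeff j) + j := by
    intro j hj
    by_cases hjk : j + 1 = k
    · have : j = k - 1 := by omega
      rw [this, hterm_eq]
    · rw [hcoeff_ne j hjk, hdeg]
      refine le_trans ?_ (hterms j (hdeg ▸ hj))
      exact_mod_cast Nat.le_succ _
  have hmk : aeval (AdjoinRoot.root (perturb G p k)) (derivative (perturb G p k)) =
      ∑ j ∈ Finset.range (perturb G p k).natDegree,
        AdjoinRoot.of (perturb G p k) ((derivative (perturb G p k)).coeff j) *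
          AdjoinRoot.root (perturb G p k) ^ j := by
    rw [AdjoinRoot.aeval_eq]
    exact hG'.mk_eq_sum (natDegree_derivative_lt hG'.pos.ne')
  rw [hmk]
  apply IsEis.enat_eq_of_le_of_not_succ_le
  · exact hG'.le_val_sum_of_forall _ _ _ hterm_ge
  · intro hcon
    have h1 := hG'.forall_le_of_le_val_sum _ _ hcon (k - 1) (hdeg ▸ hk1)
    rw [hterm_eq] at h1
    have : G.natDegree * eK + (k - 1) + 1 ≤ G.natDegree * eK + (k - 1) := by exact_mod_cast h1
    omega

/-- **FL-D, core form.**  If `A[X]/(G) ≅ A[X]/(G + p X^k)` as `A`-algebras (`1 ≤ k < e`,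
`p ∤ k`), then `v(G'(Π)) ≤ e e_K + k - 1`. -/
theorem val_derivative_le_of_algEquiv (hp : p.Prime) (hpA : (p : A) ∈ maximalIdeal A)
    (heK : IsDiscreteValuationRing.addVal A (p : A) = eK)
    (hk0 : 0 < k) (hke : k < G.natDegree) (hpk : ¬ p ∣ k)
    (e : AdjoinRoot G ≃ₐ[A] AdjoinRoot (perturb G p k)) :
    hG.val (aeval (AdjoinRoot.root G) (derivative G)) ≤
      ((G.natDegree * eK + (k - 1) : ℕ) : ℕ∞) := by
  by_contra hcon
  rw [not_le] at hcon
  have hle : ((G.natDegree * eK + (k - 1) + 1 : ℕ) : ℕ∞) ≤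
      hG.val (aeval (AdjoinRoot.root G) (derivative G)) := by
    have := Order.add_one_le_of_lt hcon
    exact_mod_cast this
  have hmk : aeval (AdjoinRoot.root G) (derivative G) =
      ∑ j ∈ Finset.range G.natDegree,
        AdjoinRoot.of G ((derivative G).coeff j) * AdjoinRoot.root G ^ j := by
    rw [AdjoinRoot.aeval_eq]
    exact hG.mk_eq_sum (natDegree_derivative_lt hG.pos.ne')
  have hterms := hG.forall_le_of_le_val_sum _ _ (hmk ▸ hle)
  have h1 := val_derivative_perturb hG hp hpA heK hk0 hke hpk hterms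
  have h2 := val_derivative_eq_of_algEquiv hG (isEis_perturb (p := p) hG hpA hk0 hke) e
  rw [h2, h1] at hcon
  exact lt_irrefl _ hcon

/-- **FL-D** (different bound by Eisenstein perturbation).  If the existence of the canonical
map `η : A[X]/(G) → (A[X]/(G + p X^k))/(p Π̃^k)` forces the two Eisenstein extensions to be
isomorphic, then `v(G'(Π)) ≤ e e_K + k - 1`. -/
theorem val_derivative_le (hp : p.Prime) (hpA : (p : A) ∈ maximalIdeal A)
    (heK : IsDiscreteValuationRing.addVal A (p : A) = eK)
    (hk0 : 0 < k) (hke : k < G.natDegree) (hpk : ¬ p ∣ k)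
    (LP : (AdjoinRoot G →ₐ[A] (AdjoinRoot (perturb G p k) ⧸ perturbIdeal G p k)) →
      Nonempty (AdjoinRoot G ≃ₐ[A] AdjoinRoot (perturb G p k))) :
    hG.val (aeval (AdjoinRoot.root G) (derivative G)) ≤
      ((G.natDegree * eK + (k - 1) : ℕ) : ℕ∞) := by
  obtain ⟨e⟩ := LP (perturbHom G p k)
  exact val_derivative_le_of_algEquiv hG hp hpA heK hk0 hke hpk e

/-- The same bound as a divisibility statement: `G'(Π) ∣ Π ^ (e e_K + k - 1)`. -/
theorem aeval_derivative_dvd_root_pow {G : A[X]} (hG : IsEis G) {p k eK : ℕ}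
    (hp : p.Prime) (hpA : (p : A) ∈ maximalIdeal A)
    (heK : IsDiscreteValuationRing.addVal A (p : A) = eK)
    (hk0 : 0 < k) (hke : k < G.natDegree) (hpk : ¬ p ∣ k)
    (LP : (AdjoinRoot G →ₐ[A] (AdjoinRoot (perturb G p k) ⧸ perturbIdeal G p k)) →
      Nonempty (AdjoinRoot G ≃ₐ[A] AdjoinRoot (perturb G p k))) :
    aeval (AdjoinRoot.root G) (derivative G) ∣
      AdjoinRoot.root G ^ (G.natDegree * eK + (k - 1)) := by
  rw [← hG.val_le_iff_dvd, hG.val_root_pow]
  exact val_derivative_le hG hp hpA heK hk0 hke hpk LP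

end Bound

end

end Fermat.Agent.S56.H134.FLD
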