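import Fermat.Agent.S56.H134.FLDMain

/-!
# S56 / FL-D, complement: homomorphisms between Eisenstein extensions of the same degree

Any `A`-algebra homomorphism `A[X]/(G) → A[X]/(G')` between two Eisenstein extensions of the same
degree of a DVR `A` preserves the valuation and is an isomorphism.  Consequently the hypothesis of
the different bound `val_derivative_le_of_algEquiv` can be weakened to: `G` has a root in
`A[X]/(G + p X^k)`.
-/

set_option autoImplicit false
set_option linter.unusedSectionVars false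
set_option linter.style.haveILetI false

namespace Fermat.Agent.S56.H134.FLD

open Polynomial IsLocalRing

noncomputable section

variable {A : Type*} [CommRing A] [IsDomain A] [IsDiscreteValuationRing A]

section Hom

variable {G G' : A[X]} (hG : IsEis G) (hG' : IsEis G')

theorem algHom_of (ψ : AdjoinRoot G →ₐ[A] AdjoinRoot G') (a : A) :
    ψ (AdjoinRoot.of G a) = AdjoinRoot.of G' a := by
  rw [← AdjoinRoot.algebraMap_eq, ← AdjoinRoot.algebraMap_eq, AlgHom.commutes]

theorem enat_eq_one_of_smul_eq {e : ℕ} (he : 0 < e) {m : ℕ∞} (h : e • m = (e : ℕ∞)) : m = 1 := by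
  induction m using ENat.recTopCoe with
  | top =>
    exfalso
    have : e • (⊤ : ℕ∞) = ⊤ := by
      rcases e with _ | e
      · omega
      · simp
    rw [this] at h
    exact ENat.top_ne_natCast e h
  | coe n =>
    have h' : e * n = e := by
      have : ((e * n : ℕ) : ℕ∞) = (e : ℕ∞) := by
        rw [← h]; push_cast; simp
      exact_mod_cast this
    have : n = 1 := by
      have := Nat.eq_of_mul_eq_mul_left he (h'.trans (mul_one e).symm)
      exact this
    rw [this]; rfl

include hG hG'

/-- The image of the root under an `A`-algebra hom is a uniformizer. -/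
theorem val_algHom_root (ψ : AdjoinRoot G →ₐ[A] AdjoinRoot G')
    (hdeg : G.natDegree = G'.natDegree) : hG'.val (ψ (AdjoinRoot.root G)) = 1 := by
  have hassoc : Associated (AdjoinRoot.root G ^ G.natDegree) (AdjoinRoot.of G (G.coeff 0)) := by
    rw [← hG.val_eq_iff_associated, hG.val_root_pow, hG.val_of_coeff_zero]
  obtain ⟨u, hu⟩ := hassoc
  have h1 := congrArg (fun b => hG'.val (ψ b)) hu
  simp only [map_mul, map_pow, algHom_of] at h1
  have hunit : hG'.val (ψ (u : AdjoinRoot G)) = 0 :=
    hG'.val_eq_zero_iff.mpr (u.isUnit.map ψ)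
  rw [hG'.val.map_mul, hG'.val.map_pow, hunit, add_zero, hG'.val_of,
    IsDiscreteValuationRing.addVal_uniformizer hG.coeff_zero_irreducible, ← hdeg] at h1
  apply enat_eq_one_of_smul_eq hG.pos
  rw [h1]
  simp

/-- An `A`-algebra hom between Eisenstein extensions of the same degree preserves the
valuation. -/
theorem val_algHom (ψ : AdjoinRoot G →ₐ[A] AdjoinRoot G')
    (hdeg : G.natDegree = G'.natDegree) (b : AdjoinRoot G) : hG'.val (ψ b) = hG.val b := by
  by_cases hb : b = 0
  · rw [hb, map_zero, hG.val.map_zero, hG'.val.map_zero]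
  · letI := hG.isDomain
    letI := hG.isDiscreteValuationRing
    obtain ⟨n, u, hu⟩ := IsDiscreteValuationRing.eq_unit_mul_pow_irreducible hb hG.root_irreducible
    have h1 : hG.val b = n := by
      rw [hu]
      exact IsDiscreteValuationRing.addVal_def' u hG.root_irreducible n
    have hunit : hG'.val (ψ (u : AdjoinRoot G)) = 0 :=
      hG'.val_eq_zero_iff.mpr (u.isUnit.map ψ)
    rw [h1, hu, map_mul, map_pow, hG'.val.map_mul, hG'.val.map_pow, hunit, zero_add,
      val_algHom_root hG hG' ψ hdeg]
    simp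

theorem algHom_injective (ψ : AdjoinRoot G →ₐ[A] AdjoinRoot G')
    (hdeg : G.natDegree = G'.natDegree) : Function.Injective ψ := by
  rw [injective_iff_map_eq_zero]
  intro b hb
  have h1 := val_algHom hG hG' ψ hdeg b
  rw [hb, hG'.val.map_zero] at h1
  exact hG.val_eq_top_iff.mp h1.symm

theorem algHom_surjective (ψ : AdjoinRoot G →ₐ[A] AdjoinRoot G')
    (hdeg : G.natDegree = G'.natDegree) : Function.Surjective ψ := by
  classical
  letI := hG'.isDomain
  have hinj := algHom_injective hG hG' ψ hdeg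
  let b₁ : Module.Basis (Fin G.natDegree) A (AdjoinRoot G) := AdjoinRoot.powerBasisAux' hG.monic
  let b₂ : Module.Basis (Fin G.natDegree) A (AdjoinRoot G') :=
    (AdjoinRoot.powerBasisAux' hG'.monic).reindex (finCongr hdeg.symm)
  set M : Matrix (Fin G.natDegree) (Fin G.natDegree) A :=
    LinearMap.toMatrix b₁ b₂ ψ.toLinearMap with hM
  have hrepr : ∀ x : AdjoinRoot G, M.mulVec ⇑(b₁.repr x) = ⇑(b₂.repr (ψ x)) := fun x =>
    LinearMap.toMatrix_mulVec_repr b₁ b₂ ψ.toLinearMap x
  have hdet : M.det ≠ 0 := by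
    intro h0
    obtain ⟨v, hv, hMv⟩ := Matrix.exists_mulVec_eq_zero_iff.mpr h0
    have h1 := hrepr (b₁.equivFun.symm v)
    have h2 : ⇑(b₁.repr (b₁.equivFun.symm v)) = v := b₁.equivFun.apply_symm_apply v
    rw [h2, hMv] at h1
    have h3 : ψ (b₁.equivFun.symm v) = 0 := by
      apply b₂.repr.injective
      apply DFunLike.coe_injective
      rw [← h1]
      simp
    have h4 : b₁.equivFun.symm v = 0 := hinj (by rw [h3, map_zero])
    apply hv
    have h5 := congrArg b₁.equivFun h4
    rw [LinearEquiv.apply_symm_apply, map_zero] at h5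
    exact h5
  intro c
  -- `det M • c` is in the image
  set v : Fin G.natDegree → A := M.adjugate.mulVec ⇑(b₂.repr c) with hv
  set b : AdjoinRoot G := b₁.equivFun.symm v with hb
  have h2 : ⇑(b₁.repr b) = v := b₁.equivFun.apply_symm_apply v
  have h3 : ψ b = M.det • c := by
    apply b₂.repr.injective
    apply DFunLike.coe_injective
    rw [← hrepr b, h2, hv, Matrix.mulVec_mulVec, Matrix.mul_adjugate, Matrix.smul_mulVec,
      Matrix.one_mulVec]
    ext i
    simp
  -- divide by `det M`
  have h4 : ψ b = AdjoinRoot.of G' M.det * c := by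
    rw [h3, Algebra.smul_def, AdjoinRoot.algebraMap_eq]
  have hval : hG'.val (AdjoinRoot.of G' M.det) = hG.val (AdjoinRoot.of G M.det) := by
    rw [hG'.val_of, hG.val_of, ← hdeg]
  have h5 : hG.val (AdjoinRoot.of G M.det) ≤ hG.val b := by
    rw [← val_algHom hG hG' ψ hdeg b, h4, hG'.val.map_mul, hval]
    exact le_self_add
  obtain ⟨b', hb'⟩ := hG.val_le_iff_dvd.mp h5
  refine ⟨b', ?_⟩
  have h6 : AdjoinRoot.of G' M.det * ψ b' = AdjoinRoot.of G' M.det * c := by
    rw [← h4, hb', map_mul, algHom_of]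
  have h7 : AdjoinRoot.of G' M.det ≠ 0 := by
    intro h0
    exact hdet (hG'.of_injective (by rw [h0, map_zero]))
  exact mul_left_cancel₀ h7 h6

/-- **Any `A`-algebra homomorphism between Eisenstein extensions of the same degree is an
isomorphism.** -/
def algEquivOfAlgHom (ψ : AdjoinRoot G →ₐ[A] AdjoinRoot G')
    (hdeg : G.natDegree = G'.natDegree) : AdjoinRoot G ≃ₐ[A] AdjoinRoot G' :=
  AlgEquiv.ofBijective ψ ⟨algHom_injective hG hG' ψ hdeg, algHom_surjective hG hG' ψ hdeg⟩

end Hom

section Root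

variable {G : A[X]} (hG : IsEis G) {p k eK : ℕ}
include hG

/-- **FL-D, hom form.**  If there is an `A`-algebra homomorphism
`A[X]/(G) → A[X]/(G + p X^k)` (`1 ≤ k < e`, `p ∤ k`), then `v(G'(Π)) ≤ e e_K + k - 1`. -/
theorem val_derivative_le_of_algHom (hp : p.Prime) (hpA : (p : A) ∈ maximalIdeal A)
    (heK : IsDiscreteValuationRing.addVal A (p : A) = eK)
    (hk0 : 0 < k) (hke : k < G.natDegree) (hpk : ¬ p ∣ k)
    (ψ : AdjoinRoot G →ₐ[A] AdjoinRoot (perturb G p k)) :
    hG.val (aeval (AdjoinRoot.root G) (derivative G)) ≤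
      ((G.natDegree * eK + (k - 1) : ℕ) : ℕ∞) :=
  val_derivative_le_of_algEquiv hG hp hpA heK hk0 hke hpk
    (algEquivOfAlgHom hG (isEis_perturb (p := p) hG hpA hk0 hke) ψ (natDegree_perturb hke).symm)

/-- **FL-D, root form.**  If `G` has a root in `A[X]/(G + p X^k)` (`1 ≤ k < e`, `p ∤ k`), then
`v(G'(Π)) ≤ e e_K + k - 1`. -/
theorem val_derivative_le_of_root (hp : p.Prime) (hpA : (p : A) ∈ maximalIdeal A)
    (heK : IsDiscreteValuationRing.addVal A (p : A) = eK)
    (hk0 : 0 < k) (hke : k < G.natDegree) (hpk : ¬ p ∣ k)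
    (y : AdjoinRoot (perturb G p k)) (hy : aeval y G = 0) :
    hG.val (aeval (AdjoinRoot.root G) (derivative G)) ≤
      ((G.natDegree * eK + (k - 1) : ℕ) : ℕ∞) :=
  val_derivative_le_of_algHom hG hp hpA heK hk0 hke hpk
    (AdjoinRoot.liftAlgHom G (Algebra.ofId A _) y hy)

end Root

end

end Fermat.Agent.S56.H134.FLD
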