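import Mathlib

/-!
# S56 / FL-D, step I: Eisenstein extensions of a discrete valuation ring

`A` a DVR, `G : A[X]` monic, Eisenstein at `𝔪_A`, of degree `e > 0`, `B := AdjoinRoot G`,
`Π := AdjoinRoot.root G`.  Then `B` is a DVR with uniformizer `Π`, `Π ^ e` is associated to a
uniformizer of `A`, and the valuation of `∑_{j<e} c_j Π^j` is `min_j (e v(c_j) + j)`.
-/

set_option autoImplicit false
set_option linter.unusedSectionVars false
set_option linter.style.haveILetI false

namespace Fermat.Agent.S56.H134.FLD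

open Polynomial IsLocalRing

noncomputable section

variable {A : Type*} [CommRing A] [IsDomain A] [IsDiscreteValuationRing A]

/-- A monic Eisenstein polynomial of positive degree over the DVR `A`. -/
structure IsEis (G : A[X]) : Prop where
  monic : G.Monic
  eis : G.IsEisensteinAt (maximalIdeal A)
  pos : 0 < G.natDegree

namespace IsEis

variable {G : A[X]} (hG : IsEis G)
include hG

theorem irreducible : Irreducible G :=
  hG.eis.irreducible (IsLocalRing.maximalIdeal.isMaximal A).isPrime hG.monic.isPrimitive hG.pos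

theorem prime : Prime G :=
  UniqueFactorizationMonoid.irreducible_iff_prime.mp hG.irreducible

theorem isDomain : IsDomain (AdjoinRoot G) :=
  AdjoinRoot.isDomain_of_prime hG.prime

theorem coeff_mem {j : ℕ} (hj : j < G.natDegree) : G.coeff j ∈ maximalIdeal A :=
  hG.eis.mem hj

theorem coeff_zero_mem : G.coeff 0 ∈ maximalIdeal A := hG.coeff_mem hG.pos

theorem coeff_zero_irreducible : Irreducible (G.coeff 0) := by
  obtain ⟨ϖ, hϖ⟩ := IsDiscreteValuationRing.exists_irreducible A
  have hne : G.coeff 0 ≠ 0 := by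
    intro h0
    exact hG.eis.notMem (h0 ▸ Ideal.zero_mem _)
  obtain ⟨n, u, hu⟩ := IsDiscreteValuationRing.eq_unit_mul_pow_irreducible hne hϖ
  have hmax := hϖ.maximalIdeal_eq
  have hn1 : n = 1 := by
    rcases n with _ | _ | n
    · exfalso
      have := hG.coeff_zero_mem
      rw [hu, pow_zero, mul_one] at this
      exact (IsLocalRing.mem_maximalIdeal _).mp this u.isUnit
    · rfl
    · exfalso
      apply hG.eis.notMem
      rw [hu, hmax, Ideal.span_singleton_pow, Ideal.mem_span_singleton]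
      exact Dvd.dvd.mul_left (pow_dvd_pow ϖ (by omega)) _
  rw [hu, hn1, pow_one]
  exact (irreducible_units_mul u).mpr hϖ

theorem coeff_zero_ne_zero : G.coeff 0 ≠ 0 := hG.coeff_zero_irreducible.ne_zero

theorem maximalIdeal_eq : maximalIdeal A = Ideal.span {G.coeff 0} :=
  hG.coeff_zero_irreducible.maximalIdeal_eq

theorem coeff_zero_dvd_coeff {j : ℕ} (hj : j < G.natDegree) : G.coeff 0 ∣ G.coeff j := by
  have := hG.coeff_mem hj
  rwa [hG.maximalIdeal_eq, Ideal.mem_span_singleton] at this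

theorem degree_ne_zero : G.degree ≠ 0 := by
  rw [Polynomial.degree_eq_natDegree hG.monic.ne_zero]
  exact_mod_cast hG.pos.ne'

theorem of_injective : Function.Injective (AdjoinRoot.of G) :=
  AdjoinRoot.of.injective_of_degree_ne_zero hG.degree_ne_zero

/-- `Π ∣ c₀` in `B`. -/
theorem root_dvd_of_coeff_zero : AdjoinRoot.root G ∣ AdjoinRoot.of G (G.coeff 0) := by
  have h1 : AdjoinRoot.mk G (divX G * X + C (G.coeff 0)) = 0 := by
    rw [Polynomial.divX_mul_X_add, AdjoinRoot.mk_self]
  rw [map_add, map_mul, AdjoinRoot.mk_X, AdjoinRoot.mk_C] at h1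
  refine ⟨-AdjoinRoot.mk G (divX G), ?_⟩
  have : AdjoinRoot.of G (G.coeff 0) = -(AdjoinRoot.mk G (divX G) * AdjoinRoot.root G) :=
    eq_neg_of_add_eq_zero_right h1
  rw [this]
  ring

/-- `Π ∣ a` in `B` for every `a ∈ 𝔪_A`. -/
theorem root_dvd_of_mem {a : A} (ha : a ∈ maximalIdeal A) :
    AdjoinRoot.root G ∣ AdjoinRoot.of G a := by
  rw [hG.maximalIdeal_eq, Ideal.mem_span_singleton] at ha
  exact hG.root_dvd_of_coeff_zero.trans (map_dvd (AdjoinRoot.of G) ha)

/-- The Eisenstein relation `Π ^ e = - ∑_{j<e} c_j Π ^ j`. -/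
theorem root_pow_eq :
    AdjoinRoot.root G ^ G.natDegree =
      -∑ j ∈ Finset.range G.natDegree, AdjoinRoot.of G (G.coeff j) * AdjoinRoot.root G ^ j := by
  have h1 := AdjoinRoot.eval₂_root G
  rw [Polynomial.eval₂_eq_sum_range, Finset.sum_range_succ, Polynomial.coeff_natDegree,
    hG.monic.leadingCoeff, map_one, one_mul] at h1
  rw [eq_neg_iff_add_eq_zero, add_comm]
  exact h1

/-- `c₀ ∣ Π ^ e` in `B`. -/
theorem of_coeff_zero_dvd_root_pow :
    AdjoinRoot.of G (G.coeff 0) ∣ AdjoinRoot.root G ^ G.natDegree := by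
  rw [hG.root_pow_eq]
  refine (Finset.dvd_sum fun j hj => ?_).neg_right
  exact Dvd.dvd.mul_right
    (map_dvd (AdjoinRoot.of G) (hG.coeff_zero_dvd_coeff (Finset.mem_range.mp hj))) _

theorem root_ne_zero : AdjoinRoot.root G ≠ 0 := by
  intro h0
  have h1 := hG.root_dvd_of_coeff_zero
  rw [h0, zero_dvd_iff] at h1
  exact hG.coeff_zero_ne_zero (hG.of_injective (by rw [h1, map_zero]))

theorem isIntegral : Algebra.IsIntegral A (AdjoinRoot G) :=
  haveI := hG.monic.finite_adjoinRoot
  Algebra.IsIntegral.of_finite A (AdjoinRoot G)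

theorem nontrivial : Nontrivial (AdjoinRoot G) :=
  haveI := hG.isDomain
  inferInstance

/-- Every maximal ideal of `B` is `(Π)`. -/
theorem eq_span_root_of_isMaximal (𝔫 : Ideal (AdjoinRoot G)) (h𝔫 : 𝔫.IsMaximal) :
    𝔫 = Ideal.span {AdjoinRoot.root G} := by
  haveI := hG.isIntegral
  have hcomap : 𝔫.comap (algebraMap A (AdjoinRoot G)) = maximalIdeal A :=
    IsLocalRing.eq_maximalIdeal (Ideal.isMaximal_comap_of_isIntegral_of_isMaximal 𝔫)
  have hmem : ∀ a ∈ maximalIdeal A, AdjoinRoot.of G a ∈ 𝔫 := by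
    intro a ha
    rw [← hcomap] at ha
    exact ha
  have hroot : AdjoinRoot.root G ∈ 𝔫 := by
    have h1 : AdjoinRoot.root G ^ G.natDegree ∈ 𝔫 :=
      Ideal.mem_of_dvd _ hG.of_coeff_zero_dvd_root_pow (hmem _ hG.coeff_zero_mem)
    exact h𝔫.isPrime.mem_of_pow_mem _ h1
  apply le_antisymm
  · intro b hb
    obtain ⟨f, rfl⟩ := AdjoinRoot.mk_surjective b
    have h1 : AdjoinRoot.mk G f =
        AdjoinRoot.mk G (divX f) * AdjoinRoot.root G + AdjoinRoot.of G (f.coeff 0) := by
      conv_lhs => rw [← Polynomial.divX_mul_X_add f]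
      rw [map_add, map_mul, AdjoinRoot.mk_X, AdjoinRoot.mk_C]
    have h2 : AdjoinRoot.of G (f.coeff 0) ∈ 𝔫 := by
      have : AdjoinRoot.of G (f.coeff 0) =
          AdjoinRoot.mk G f - AdjoinRoot.mk G (divX f) * AdjoinRoot.root G := by
        rw [h1]; ring
      rw [this]
      exact Ideal.sub_mem _ hb (Ideal.mul_mem_left _ _ hroot)
    have h3 : f.coeff 0 ∈ maximalIdeal A := by
      rw [← hcomap]
      exact h2
    rw [Ideal.mem_span_singleton, h1]
    exact dvd_add (Dvd.intro_left _ rfl) (hG.root_dvd_of_mem h3)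
  · rw [Ideal.span_le]
    intro x hx
    rw [Set.mem_singleton_iff] at hx
    rw [hx]
    exact hroot

theorem isLocalRing : IsLocalRing (AdjoinRoot G) := by
  haveI := hG.nontrivial
  apply IsLocalRing.of_unique_max_ideal
  obtain ⟨𝔫, h𝔫⟩ := Ideal.exists_maximal (AdjoinRoot G)
  refine ⟨𝔫, h𝔫, fun 𝔫' h𝔫' => ?_⟩
  rw [hG.eq_span_root_of_isMaximal 𝔫 h𝔫, hG.eq_span_root_of_isMaximal 𝔫' h𝔫']

theorem maximalIdeal_adjoinRoot_eq :
    @maximalIdeal (AdjoinRoot G) _ hG.isLocalRing = Ideal.span {AdjoinRoot.root G} :=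
  haveI := hG.isLocalRing
  hG.eq_span_root_of_isMaximal _ (IsLocalRing.maximalIdeal.isMaximal _)

theorem isDiscreteValuationRing :
    @IsDiscreteValuationRing (AdjoinRoot G) _ hG.isDomain := by
  haveI := hG.isDomain
  haveI := hG.isLocalRing
  have hnf : ¬ IsField (AdjoinRoot G) := by
    intro hf
    have hmax := hG.maximalIdeal_adjoinRoot_eq
    have hbot : maximalIdeal (AdjoinRoot G) = ⊥ := IsLocalRing.isField_iff_maximalIdeal_eq.mp hf
    rw [hbot] at hmax
    have : AdjoinRoot.root G ∈ (⊥ : Ideal (AdjoinRoot G)) := by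
      rw [hmax]; exact Ideal.subset_span rfl
    exact hG.root_ne_zero (by simpa using this)
  refine ((IsDiscreteValuationRing.TFAE (AdjoinRoot G) hnf).out 4 0).mp ?_
  rw [hG.maximalIdeal_adjoinRoot_eq]
  exact ⟨⟨_, rfl⟩⟩

theorem root_irreducible : Irreducible (AdjoinRoot.root G) := by
  haveI := hG.isDomain
  haveI := hG.isDiscreteValuationRing
  rw [IsDiscreteValuationRing.irreducible_iff_uniformizer]
  exact hG.eq_span_root_of_isMaximal _ (IsLocalRing.maximalIdeal.isMaximal _)

/-- The normalized additive valuation of `B = AdjoinRoot G`. -/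
def val : AddValuation (AdjoinRoot G) ℕ∞ :=
  @IsDiscreteValuationRing.addVal (AdjoinRoot G) _ hG.isDomain hG.isDiscreteValuationRing

theorem val_root : hG.val (AdjoinRoot.root G) = 1 :=
  @IsDiscreteValuationRing.addVal_uniformizer (AdjoinRoot G) _ hG.isDomain
    hG.isDiscreteValuationRing _ hG.root_irreducible

theorem val_root_pow (n : ℕ) : hG.val (AdjoinRoot.root G ^ n) = n := by
  rw [hG.val.map_pow, hG.val_root]
  simp

theorem val_eq_top_iff {b : AdjoinRoot G} : hG.val b = ⊤ ↔ b = 0 :=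
  @IsDiscreteValuationRing.addVal_eq_top_iff (AdjoinRoot G) _ hG.isDomain
    hG.isDiscreteValuationRing b

theorem val_eq_zero_iff {b : AdjoinRoot G} : hG.val b = 0 ↔ IsUnit b :=
  @IsDiscreteValuationRing.addVal_eq_zero_iff (AdjoinRoot G) _ hG.isDomain
    hG.isDiscreteValuationRing b

theorem val_le_iff_dvd {a b : AdjoinRoot G} : hG.val a ≤ hG.val b ↔ a ∣ b :=
  @IsDiscreteValuationRing.addVal_le_iff_dvd (AdjoinRoot G) _ hG.isDomain
    hG.isDiscreteValuationRing a b

theorem val_eq_iff_associated {a b : AdjoinRoot G} : hG.val a = hG.val b ↔ Associated a b :=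
  @IsDiscreteValuationRing.addVal_eq_iff_associated (AdjoinRoot G) _ hG.isDomain
    hG.isDiscreteValuationRing a b

theorem one_le_val_iff {b : AdjoinRoot G} : 1 ≤ hG.val b ↔ AdjoinRoot.root G ∣ b := by
  rw [← hG.val_root, hG.val_le_iff_dvd]

theorem pow_dvd_iff_le_val {b : AdjoinRoot G} (n : ℕ) :
    AdjoinRoot.root G ^ n ∣ b ↔ (n : ℕ∞) ≤ hG.val b := by
  rw [← hG.val_root_pow n, hG.val_le_iff_dvd]

theorem val_of_isUnit {u : A} (hu : IsUnit u) : hG.val (AdjoinRoot.of G u) = 0 :=
  hG.val_eq_zero_iff.mpr (hu.map (AdjoinRoot.of G))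

/-- `v_B(c₀) = e`. -/
theorem val_of_coeff_zero : hG.val (AdjoinRoot.of G (G.coeff 0)) = G.natDegree := by
  -- write `c_j = c₀ d_j` for `j < e`, `d₀ = 1`
  have hd : ∀ j : ℕ, ∃ d : A, j < G.natDegree → G.coeff j = G.coeff 0 * d := by
    intro j
    by_cases hj : j < G.natDegree
    · obtain ⟨d, hd⟩ := hG.coeff_zero_dvd_coeff hj
      exact ⟨d, fun _ => hd⟩
    · exact ⟨0, fun h => absurd h hj⟩
  choose d hd using hd
  set w : AdjoinRoot G :=
    ∑ j ∈ Finset.range G.natDegree, AdjoinRoot.of G (d j) * AdjoinRoot.root G ^ j with hw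
  have h1 : AdjoinRoot.root G ^ G.natDegree = -(AdjoinRoot.of G (G.coeff 0) * w) := by
    rw [hG.root_pow_eq, hw, Finset.mul_sum]
    congr 1
    refine Finset.sum_congr rfl fun j hj => ?_
    rw [hd j (Finset.mem_range.mp hj), map_mul, mul_assoc]
  -- `w` is a unit
  have hd0 : d 0 = 1 := by
    have := hd 0 hG.pos
    have h3 : G.coeff 0 * d 0 = G.coeff 0 * 1 := by rw [← this, mul_one]
    exact mul_left_cancel₀ hG.coeff_zero_ne_zero h3
  have hwval : hG.val w = 0 := by
    have hsplit : w = 1 + ∑ j ∈ Finset.range (G.natDegree - 1),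
        AdjoinRoot.of G (d (j + 1)) * AdjoinRoot.root G ^ (j + 1) := by
      rw [hw]
      obtain ⟨e', he'⟩ : ∃ e', G.natDegree = e' + 1 := ⟨G.natDegree - 1, by have := hG.pos; omega⟩
      rw [he', Finset.sum_range_succ', Nat.add_sub_cancel, pow_zero, mul_one, hd0, map_one,
        add_comm]
    have hrest : (1 : ℕ∞) ≤ hG.val (∑ j ∈ Finset.range (G.natDegree - 1),
        AdjoinRoot.of G (d (j + 1)) * AdjoinRoot.root G ^ (j + 1)) := by
      apply hG.val.map_le_sum
      intro j _
      rw [hG.one_le_val_iff, pow_succ, ← mul_assoc]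
      exact Dvd.intro_left _ rfl
    rw [hsplit, hG.val.map_add_eq_of_lt_left]
    · exact hG.val.map_one
    · rw [hG.val.map_one]
      exact lt_of_lt_of_le (by norm_num) hrest
  have h2 := congrArg hG.val h1
  rw [hG.val_root_pow, hG.val.map_neg, hG.val.map_mul, hwval, add_zero] at h2
  exact h2.symm

/-- `v_B(a) = e · v_A(a)` for `a ∈ A`. -/
theorem val_of (a : A) :
    hG.val (AdjoinRoot.of G a) = G.natDegree • IsDiscreteValuationRing.addVal A a := by
  by_cases ha : a = 0
  · rw [ha, map_zero, hG.val.map_zero, IsDiscreteValuationRing.addVal_zero]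
    have := hG.pos
    rcases h : G.natDegree with _ | n
    · omega
    · simp
  · obtain ⟨n, u, hu⟩ :=
      IsDiscreteValuationRing.eq_unit_mul_pow_irreducible ha hG.coeff_zero_irreducible
    rw [hu, IsDiscreteValuationRing.addVal_def' u hG.coeff_zero_irreducible n, map_mul, map_pow,
      hG.val.map_mul, hG.val.map_pow, hG.val_of_coeff_zero, hG.val_of_isUnit u.isUnit, zero_add]
    simp [mul_comm]

/-- `v_B(c Π^j) = e · v_A(c) + j`. -/
theorem val_term (c : A) (j : ℕ) :
    hG.val (AdjoinRoot.of G c * AdjoinRoot.root G ^ j) =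
      G.natDegree • IsDiscreteValuationRing.addVal A c + j := by
  rw [hG.val.map_mul, hG.val_of, hG.val_root_pow]

/-- Ultrametric lower bound for `∑_{j<n} c_j Π^j`. -/
theorem le_val_sum_of_forall (c : ℕ → A) (M : ℕ∞) (n : ℕ)
    (h : ∀ j < n, M ≤ G.natDegree • IsDiscreteValuationRing.addVal A (c j) + j) :
    M ≤ hG.val (∑ j ∈ Finset.range n, AdjoinRoot.of G (c j) * AdjoinRoot.root G ^ j) := by
  apply hG.val.map_le_sum
  intro j hj
  rw [hG.val_term]
  exact h j (Finset.mem_range.mp hj)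

omit hG in
theorem enat_eq_of_smul_add_eq {e : ℕ} (he : 0 < e) {a : ℕ∞} {j M : ℕ}
    (h : e • a + (j : ℕ∞) = (M : ℕ∞)) : ∃ n : ℕ, a = n ∧ e * n + j = M := by
  induction a using ENat.recTopCoe with
  | top =>
    exfalso
    have : e • (⊤ : ℕ∞) = ⊤ := by
      rcases e with _ | e
      · omega
      · simp
    rw [this, top_add] at h
    exact ENat.top_ne_natCast M h
  | coe n =>
    refine ⟨n, rfl, ?_⟩
    have h' : ((e * n + j : ℕ) : ℕ∞) = (M : ℕ∞) := by
      rw [← h]
      push_cast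
      simp
    exact_mod_cast h'

omit hG in
theorem enat_eq_of_le_of_not_succ_le {t : ℕ∞} {M : ℕ} (h1 : (M : ℕ∞) ≤ t)
    (h2 : ¬ ((M + 1 : ℕ) : ℕ∞) ≤ t) : t = M := by
  induction t using ENat.recTopCoe with
  | top => exact absurd le_top h2
  | coe n =>
    have h1' : M ≤ n := by exact_mod_cast h1
    have h2' : ¬ M + 1 ≤ n := by
      intro h
      apply h2
      exact_mod_cast h
    have : n = M := by omega
    rw [this]

/-- **Valuation formula** (lower bound on each term): if `Π ^ M ∣ ∑_{j<e} c_j Π^j`, then every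
term `c_j Π^j` has valuation `≥ M`. -/
theorem forall_le_of_le_val_sum (c : ℕ → A) (M : ℕ)
    (h : (M : ℕ∞) ≤
      hG.val (∑ j ∈ Finset.range G.natDegree, AdjoinRoot.of G (c j) * AdjoinRoot.root G ^ j)) :
    ∀ j < G.natDegree, (M : ℕ∞) ≤ G.natDegree • IsDiscreteValuationRing.addVal A (c j) + j := by
  induction M with
  | zero => intro j _; simp
  | succ M ih =>
    have hM : (M : ℕ∞) ≤
        hG.val (∑ j ∈ Finset.range G.natDegree,
          AdjoinRoot.of G (c j) * AdjoinRoot.root G ^ j) :=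
      le_trans (by exact_mod_cast Nat.le_succ M) h
    have ih' := ih hM
    by_contra hcon
    push Not at hcon
    obtain ⟨j₀, hj₀, hlt⟩ := hcon
    have hj₀eq : G.natDegree • IsDiscreteValuationRing.addVal A (c j₀) + (j₀ : ℕ∞) = M :=
      enat_eq_of_le_of_not_succ_le (ih' j₀ hj₀) (not_le.mpr hlt)
    obtain ⟨n₀, hn₀, hn₀M⟩ := enat_eq_of_smul_add_eq hG.pos hj₀eq
    -- all other terms have valuation ≥ M + 1
    have hother : ∀ j ∈ (Finset.range G.natDegree).erase j₀,
        ((M + 1 : ℕ) : ℕ∞) ≤ hG.val (AdjoinRoot.of G (c j) * AdjoinRoot.root G ^ j) := by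
      intro j hj
      rw [Finset.mem_erase, Finset.mem_range] at hj
      rw [hG.val_term]
      by_contra hlt'
      have hjeq : G.natDegree • IsDiscreteValuationRing.addVal A (c j) + (j : ℕ∞) = M :=
        enat_eq_of_le_of_not_succ_le (ih' j hj.2) hlt'
      obtain ⟨n, _, hnM⟩ := enat_eq_of_smul_add_eq hG.pos hjeq
      apply hj.1
      have h1 : (G.natDegree * n + j) % G.natDegree = (G.natDegree * n₀ + j₀) % G.natDegree := by
        rw [hnM, hn₀M]
      rw [Nat.mul_add_mod, Nat.mul_add_mod, Nat.mod_eq_of_lt hj.2, Nat.mod_eq_of_lt hj₀] at h1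
      exact h1
    have hrest : ((M + 1 : ℕ) : ℕ∞) ≤ hG.val (∑ j ∈ (Finset.range G.natDegree).erase j₀,
        AdjoinRoot.of G (c j) * AdjoinRoot.root G ^ j) :=
      hG.val.map_le_sum hother
    have hsplit : AdjoinRoot.of G (c j₀) * AdjoinRoot.root G ^ j₀ =
        (∑ j ∈ Finset.range G.natDegree, AdjoinRoot.of G (c j) * AdjoinRoot.root G ^ j) -
          ∑ j ∈ (Finset.range G.natDegree).erase j₀,
            AdjoinRoot.of G (c j) * AdjoinRoot.root G ^ j := by
      rw [← Finset.add_sum_erase _ _ (Finset.mem_range.mpr hj₀)]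
      ring
    have hterm : ((M + 1 : ℕ) : ℕ∞) ≤
        hG.val (AdjoinRoot.of G (c j₀) * AdjoinRoot.root G ^ j₀) := by
      rw [hsplit]
      exact le_trans (le_min h hrest) (hG.val.map_sub _ _)
    rw [hG.val_term, hj₀eq] at hterm
    have : M + 1 ≤ M := by exact_mod_cast hterm
    omega

/-- **Valuation formula**: `Π ^ M ∣ ∑_{j<e} c_j Π^j` iff every term has valuation `≥ M`. -/
theorem le_val_sum_iff (c : ℕ → A) (M : ℕ) :
    (M : ℕ∞) ≤
      hG.val (∑ j ∈ Finset.range G.natDegree, AdjoinRoot.of G (c j) * AdjoinRoot.root G ^ j) ↔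
    ∀ j < G.natDegree, (M : ℕ∞) ≤ G.natDegree • IsDiscreteValuationRing.addVal A (c j) + j :=
  ⟨hG.forall_le_of_le_val_sum c M, hG.le_val_sum_of_forall c M _⟩

/-- The value of a polynomial of degree `< e` at `Π`, as a sum over `range e`. -/
theorem mk_eq_sum {f : A[X]} (hf : f.natDegree < G.natDegree) :
    AdjoinRoot.mk G f =
      ∑ j ∈ Finset.range G.natDegree, AdjoinRoot.of G (f.coeff j) * AdjoinRoot.root G ^ j := by
  rw [← AdjoinRoot.aeval_eq, Polynomial.aeval_def, Polynomial.eval₂_eq_sum_range' _ hf]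
  rfl

end IsEis

end

end Fermat.Agent.S56.H134.FLD
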