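import Fermat.Agent.S56.H134.FLDIso
import Fermat.Agent.S56.H116.LiftConv

/-!
# S56 / FL-D, the points step (FL-D-PTS): Theorem D in Eisenstein form

`A` a complete DVR, `p ∈ 𝔪_A` a prime number with `v_A(p) = e_K`, `G` an Eisenstein polynomial of
degree `e` over `A`, `B = A[X]/(G)` (uniformizer `Π`), `C = A[X]/(G + p X^k)` (uniformizer `Π̃`),
`1 ≤ k < e`, `e e_K < k (p - 1)`.  `H` is a commutative cocommutative `O`-bialgebra, projective
as an `O`-module (`O → A` any base, e.g. `O = ℤ_(p)`), and `Ω` an algebraically closed field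
with `j : B → Ω`.

* `IsEis.completeFiltration`: `A[X]/(G)` is complete for the `Π`-adic filtration.
* `exists_unique_liftPt`: a point `x : H → B` with `x^{*p} = 1` has a unique lift
  `x̃ : H → C` with `x̃^{*p} = 1`, `x̃ ≡ η ∘ x mod Π̃^k` (`η = perturbHom`; lifting lemma (C) of
  `H116.LiftConv`).
* `liftPt_injective`: `x ↦ x̃` is injective (rigidity (A) in `B`).
* `point_values_mem_range` (stage 1): if all `Ω`-points of `H` are `B`-rational and finite in
  number, they all have values in `C ⊆ Ω`.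
* `exists_algHom_of_values` (stage 2): if `S ⊆ B` generates `Frac B` over `Frac A` and
  `j(S) ⊆ C`, then `j` factors through `C`.
* `exists_algHom_perturb_of_points`, `…_of_points₂`, `…_of_family`: an `A`-algebra homomorphism
  `B → C` (for one, two, or a family of bialgebras whose points generate `Frac B`).
* `val_derivative_le_of_points`, `…_of_points₂`, `…_of_family`: **Theorem D**,
  `v_B(G'(Π)) ≤ e e_K + k - 1` if moreover `p ∤ k`.

Only "every `B`-point has order dividing `p`" is used (not `[p]_H = ηε`).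
-/

set_option autoImplicit false
set_option linter.unusedSectionVars false
set_option linter.style.haveILetI false

namespace Fermat.Agent.S56.H134.FLD

open Polynomial IsLocalRing

noncomputable section

variable {A : Type*} [CommRing A] [IsDomain A] [IsDiscreteValuationRing A]

/-! ### Coordinates and completeness of an Eisenstein extension -/

namespace IsEis

variable {G : A[X]} (hG : IsEis G)
include hG

/-- Every element of `A[X]/(G)` is `∑_{j<e} c_j Π^j`. -/
theorem exists_coeffs (b : AdjoinRoot G) :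
    ∃ c : ℕ → A, b = ∑ j ∈ Finset.range G.natDegree,
      AdjoinRoot.of G (c j) * AdjoinRoot.root G ^ j := by
  obtain ⟨f, rfl⟩ := AdjoinRoot.mk_surjective b
  refine ⟨(f %ₘ G).coeff, ?_⟩
  have h1 : AdjoinRoot.mk G f = AdjoinRoot.mk G (f %ₘ G) := by
    conv_lhs => rw [← Polynomial.modByMonic_add_div f G]
    rw [map_add, map_mul, AdjoinRoot.mk_self, zero_mul, add_zero]
  rw [h1]
  have hne : G ≠ 1 := by
    intro h
    have := hG.pos
    rw [h, natDegree_one] at this
    exact lt_irrefl _ this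
  exact hG.mk_eq_sum (natDegree_modByMonic_lt f hG.monic hne)

omit hG in
theorem enat_le_of_mul_le {e : ℕ} {v : ℕ∞} {j m : ℕ} (hj : j < e)
    (h : ((e * m : ℕ) : ℕ∞) ≤ e • v + j) : (m : ℕ∞) ≤ v := by
  induction v using ENat.recTopCoe with
  | top => exact le_top
  | coe n =>
    have h' : ((e * m : ℕ) : ℕ∞) ≤ ((e * n + j : ℕ) : ℕ∞) := by
      refine le_trans h (le_of_eq ?_)
      push_cast
      simp
    have h'' : e * m ≤ e * n + j := by exact_mod_cast h'
    have : m ≤ n := by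
      by_contra hcon
      rw [not_le] at hcon
      have : e * (n + 1) ≤ e * m := Nat.mul_le_mul_left e hcon
      nlinarith
    exact_mod_cast this

theorem mem_maximalIdeal_pow_iff (a : A) (m : ℕ) :
    a ∈ maximalIdeal A ^ m ↔ (m : ℕ∞) ≤ IsDiscreteValuationRing.addVal A a := by
  rw [hG.maximalIdeal_eq, Ideal.span_singleton_pow, Ideal.mem_span_singleton,
    ← IsDiscreteValuationRing.addVal_le_iff_dvd, IsDiscreteValuationRing.addVal_pow,
    IsDiscreteValuationRing.addVal_uniformizer hG.coeff_zero_irreducible]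
  simp

theorem mem_span_root_pow_iff (b : AdjoinRoot G) (n : ℕ) :
    b ∈ Ideal.span {AdjoinRoot.root G ^ n} ↔ (n : ℕ∞) ≤ hG.val b := by
  rw [Ideal.mem_span_singleton, hG.pow_dvd_iff_le_val]

/-- `A[X]/(G)` is complete for the `Π`-adic filtration if `A` is complete. -/
theorem completeFiltration [IsAdicComplete (maximalIdeal A) A] :
    H116.CompleteFiltration (fun n => (Ideal.span {AdjoinRoot.root G ^ n} :
      Ideal (AdjoinRoot G))) where
  top := by simp
  anti n := by
    rw [Ideal.span_singleton_le_span_singleton]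
    exact pow_dvd_pow _ (Nat.le_succ n)
  mul n := by
    rw [Ideal.span_singleton_mul_span_singleton, pow_one, ← pow_succ']
  haus x hx := by
    rw [← hG.val_eq_top_iff, ENat.eq_top_iff_forall_ge]
    intro n
    exact (hG.mem_span_root_pow_iff x n).mp (hx n)
  prec f hf := by
    classical
    set e := G.natDegree with he
    have hepos : 0 < e := hG.pos
    -- differences
    have hmono : ∀ m n, m ≤ n → f n - f m ∈ Ideal.span {AdjoinRoot.root G ^ m} := by
      intro m n hmn
      induction n, hmn using Nat.le_induction with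
      | base => simp
      | succ n hmn ih =>
        have h1 : f (n + 1) - f m = (f (n + 1) - f n) + (f n - f m) := by ring
        rw [h1]
        refine Ideal.add_mem _ ?_ ih
        have : Ideal.span {AdjoinRoot.root G ^ n} ≤ Ideal.span {AdjoinRoot.root G ^ m} := by
          rw [Ideal.span_singleton_le_span_singleton]
          exact pow_dvd_pow _ hmn
        exact this (hf n)
    -- coordinates
    choose c hc using fun n => hG.exists_coeffs (f n)
    have hcoord : ∀ m n, m ≤ n → ∀ j < e,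
        c (e * n) j - c (e * m) j ∈ maximalIdeal A ^ m := by
      intro m n hmn j hj
      rw [hG.mem_maximalIdeal_pow_iff]
      have h1 := hmono (e * m) (e * n) (Nat.mul_le_mul_left e hmn)
      rw [hG.mem_span_root_pow_iff, hc (e * n), hc (e * m), ← Finset.sum_sub_distrib] at h1
      have h2 : ∀ i ∈ Finset.range G.natDegree,
          AdjoinRoot.of G (c (e * n) i) * AdjoinRoot.root G ^ i -
            AdjoinRoot.of G (c (e * m) i) * AdjoinRoot.root G ^ i =
          AdjoinRoot.of G ((fun i => c (e * n) i - c (e * m) i) i) * AdjoinRoot.root G ^ i := by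
        intro i _
        simp only [map_sub]
        ring
      rw [Finset.sum_congr rfl h2] at h1
      have h3 := hG.forall_le_of_le_val_sum _ _ h1 j hj
      exact enat_le_of_mul_le hj h3
    -- limits of coordinates
    have hlim : ∀ j, ∃ L : A, j < e → ∀ n, L - c (e * n) j ∈ maximalIdeal A ^ n := by
      intro j
      by_cases hj : j < e
      · have hprec := (inferInstance : IsPrecomplete (maximalIdeal A) A)
        obtain ⟨L, hL⟩ := hprec.prec (f := fun n => c (e * n) j) (by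
          intro m n hmn
          rw [SModEq.sub_mem]
          have := hcoord m n hmn j hj
          have h4 : c (e * m) j - c (e * n) j = -(c (e * n) j - c (e * m) j) := by ring
          rw [h4]
          simpa using (Ideal.neg_mem_iff _).mpr this)
        refine ⟨L, fun _ n => ?_⟩
        have := hL n
        rw [SModEq.sub_mem] at this
        have h4 : L - c (e * n) j = -(c (e * n) j - L) := by ring
        rw [h4]
        simpa using (Ideal.neg_mem_iff _).mpr this
      · exact ⟨0, fun h => absurd h hj⟩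
    choose L hL using hlim
    refine ⟨∑ j ∈ Finset.range G.natDegree, AdjoinRoot.of G (L j) * AdjoinRoot.root G ^ j,
      fun n => ?_⟩
    have h5 : (∑ j ∈ Finset.range G.natDegree, AdjoinRoot.of G (L j) * AdjoinRoot.root G ^ j) -
        f n = ((∑ j ∈ Finset.range G.natDegree,
          AdjoinRoot.of G (L j) * AdjoinRoot.root G ^ j) - f (e * n)) + (f (e * n) - f n) := by
      ring
    rw [h5]
    refine Ideal.add_mem _ ?_ (hmono n (e * n) (Nat.le_mul_of_pos_left n hepos))
    have h6 : Ideal.span {AdjoinRoot.root G ^ (e * n)} ≤ Ideal.span {AdjoinRoot.root G ^ n} := by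
      rw [Ideal.span_singleton_le_span_singleton]
      exact pow_dvd_pow _ (Nat.le_mul_of_pos_left n hepos)
    apply h6
    rw [hG.mem_span_root_pow_iff, hc (e * n), ← Finset.sum_sub_distrib]
    have h2 : ∀ i ∈ Finset.range G.natDegree,
        AdjoinRoot.of G (L i) * AdjoinRoot.root G ^ i -
          AdjoinRoot.of G (c (e * n) i) * AdjoinRoot.root G ^ i =
        AdjoinRoot.of G ((fun i => L i - c (e * n) i) i) * AdjoinRoot.root G ^ i := by
      intro i _
      simp only [map_sub]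
      ring
    rw [Finset.sum_congr rfl h2]
    apply hG.le_val_sum_of_forall
    intro j hj
    have h7 := (hG.mem_maximalIdeal_pow_iff _ n).mp (hL j hj n)
    calc ((e * n : ℕ) : ℕ∞) = e • (n : ℕ∞) := by push_cast; simp
      _ ≤ e • IsDiscreteValuationRing.addVal A (L j - c (e * n) j) := by
          exact nsmul_le_nsmul_right h7 e
      _ ≤ _ := le_self_add


/-- The image of the natural number `p` in `A[X]/(G)` has valuation `e e_K`. -/
theorem val_natCast {p eK : ℕ} (heK : IsDiscreteValuationRing.addVal A (p : A) = eK) :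
    hG.val ((p : ℕ) : AdjoinRoot G) = ((G.natDegree * eK : ℕ) : ℕ∞) := by
  have h1 : ((p : ℕ) : AdjoinRoot G) = AdjoinRoot.of G (p : A) := (map_natCast _ p).symm
  rw [h1, hG.val_of, heK]
  push_cast
  simp

theorem natCast_ne_zero {p eK : ℕ} (heK : IsDiscreteValuationRing.addVal A (p : A) = eK) :
    ((p : ℕ) : AdjoinRoot G) ≠ 0 := by
  intro h
  have h1 := hG.val_natCast heK
  rw [h, hG.val.map_zero] at h1
  exact ENat.natCast_ne_top _ h1.symm

/-- If `e e_K < k (p - 1)` then `(Π^k)^(p-1) = p μ` with `μ ∈ (Π)`. -/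
theorem exists_mu {p k eK : ℕ} (heK : IsDiscreteValuationRing.addVal A (p : A) = eK)
    (hkp : G.natDegree * eK < k * (p - 1)) :
    ∃ mu : AdjoinRoot G, (AdjoinRoot.root G ^ k) ^ (p - 1) = (p : AdjoinRoot G) * mu ∧
      mu ∈ Ideal.span {AdjoinRoot.root G ^ 1} := by
  haveI := hG.isDomain
  have h1 : hG.val ((p : ℕ) : AdjoinRoot G) = hG.val (AdjoinRoot.root G ^ (G.natDegree * eK)) := by
    rw [hG.val_natCast heK, hG.val_root_pow]
  obtain ⟨u, hu⟩ := hG.val_eq_iff_associated.mp h1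
  obtain ⟨d, hd⟩ : ∃ d, k * (p - 1) = G.natDegree * eK + (d + 1) :=
    ⟨k * (p - 1) - G.natDegree * eK - 1, by omega⟩
  refine ⟨(↑u : AdjoinRoot G) * AdjoinRoot.root G ^ (d + 1), ?_, ?_⟩
  · rw [← pow_mul, hd, pow_add, ← hu]
    ring
  · rw [Ideal.mem_span_singleton, pow_one]
    exact Dvd.dvd.mul_left (dvd_pow_self _ (Nat.succ_ne_zero d)) _

theorem root_pow_mem {k : ℕ} (hk0 : 0 < k) :
    AdjoinRoot.root G ^ k ∈ Ideal.span {AdjoinRoot.root G ^ 1} := by
  rw [Ideal.mem_span_singleton, pow_one]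
  exact dvd_pow_self _ hk0.ne'

theorem mul_eq_zero_right {a s : AdjoinRoot G} (ha : a ≠ 0) (h : a * s = 0) : s = 0 := by
  haveI := hG.isDomain
  exact (mul_eq_zero.mp h).resolve_left ha

end IsEis

/-! ### The canonical map `η` on coordinates -/

section Eta

variable {G : A[X]} {p k : ℕ}

theorem perturbHom_of (a : A) :
    perturbHom G p k (AdjoinRoot.of G a) =
      Ideal.Quotient.mk (perturbIdeal G p k) (AdjoinRoot.of (perturb G p k) a) := by
  have h1 : AdjoinRoot.of G a = algebraMap A (AdjoinRoot G) a := rfl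
  rw [h1, AlgHom.commutes]
  rfl

theorem perturbHom_sum (c : ℕ → A) (n : ℕ) :
    perturbHom G p k (∑ j ∈ Finset.range n, AdjoinRoot.of G (c j) * AdjoinRoot.root G ^ j) =
      Ideal.Quotient.mk (perturbIdeal G p k)
        (∑ j ∈ Finset.range n,
          AdjoinRoot.of (perturb G p k) (c j) * AdjoinRoot.root (perturb G p k) ^ j) := by
  rw [map_sum, map_sum]
  refine Finset.sum_congr rfl fun j _ => ?_
  rw [map_mul, map_pow, perturbHom_root, perturbHom_of, map_mul, map_pow]

/-- `η` preserves valuations below `k`: if `η b ∈ (Π̃^k)/(p Π̃^k)` then `Π^k ∣ b`. -/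
theorem mem_span_of_perturbHom_eq (hG : IsEis G) (hpA : (p : A) ∈ maximalIdeal A)
    (hk0 : 0 < k) (hke : k < G.natDegree) (b : AdjoinRoot G)
    (t : AdjoinRoot (perturb G p k))
    (ht : t ∈ Ideal.span {AdjoinRoot.root (perturb G p k) ^ k})
    (h : perturbHom G p k b = Ideal.Quotient.mk (perturbIdeal G p k) t) :
    b ∈ Ideal.span {AdjoinRoot.root G ^ k} := by
  have hG' : IsEis (perturb G p k) := isEis_perturb hG hpA hk0 hke
  obtain ⟨c, hc⟩ := hG.exists_coeffs b
  rw [hc, perturbHom_sum, Ideal.Quotient.eq, perturbIdeal] at h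
  have hle : Ideal.span {(p : AdjoinRoot (perturb G p k)) * AdjoinRoot.root (perturb G p k) ^ k} ≤
      Ideal.span {AdjoinRoot.root (perturb G p k) ^ k} := H116.span_natCast_mul_le p _
  have h1 : (∑ j ∈ Finset.range G.natDegree,
      AdjoinRoot.of (perturb G p k) (c j) * AdjoinRoot.root (perturb G p k) ^ j) ∈
      Ideal.span {AdjoinRoot.root (perturb G p k) ^ k} := by
    have := Ideal.add_mem _ (hle h) ht
    simpa using this
  rw [hG'.mem_span_root_pow_iff, ← natDegree_perturb (p := p) hke] at h1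
  have h2 := hG'.forall_le_of_le_val_sum c k h1
  rw [natDegree_perturb hke] at h2
  rw [hc, hG.mem_span_root_pow_iff]
  exact hG.le_val_sum_of_forall c _ _ h2

end Eta

/-! ### Lifting points along `η` -/

section Points

open WithConv

variable {G : A[X]} {p k eK : ℕ}
variable {O : Type*} [CommRing O] [Algebra O A]
variable {H : Type*} [CommRing H] [Bialgebra O H] [Coalgebra.IsCocomm O H]

/-- The point `η ∘ x` of `H` with values in `C/(p Π̃^k)`. -/
def etaPt (G : A[X]) (p k : ℕ) (x : H →ₐ[O] AdjoinRoot G) :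
    H →ₐ[O] (AdjoinRoot (perturb G p k) ⧸
      Ideal.span {(p : AdjoinRoot (perturb G p k)) * AdjoinRoot.root (perturb G p k) ^ k}) :=
  ((perturbHom G p k).restrictScalars O).comp x

theorem etaPt_apply (x : H →ₐ[O] AdjoinRoot G) (h : H) :
    etaPt G p k x h = perturbHom G p k (x h) := rfl

/-- **Lifting of points**: every point `x` of `H` in `B = A[X]/(G)` of order dividing `p` has a
unique lift `x̃` of order dividing `p` in `C = A[X]/(G + p X^k)` with `x̃ ≡ η ∘ x mod Π̃^k`. -/
theorem exists_unique_liftPt [IsAdicComplete (maximalIdeal A) A] [Module.Projective O H]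
    (hG : IsEis G) (hp : p.Prime) (hpA : (p : A) ∈ maximalIdeal A)
    (heK : IsDiscreteValuationRing.addVal A (p : A) = eK)
    (hk0 : 0 < k) (hke : k < G.natDegree) (hkp : G.natDegree * eK < k * (p - 1))
    (x : H →ₐ[O] AdjoinRoot G)
    (hx : (toConv x.toLinearMap : WithConv (H →ₗ[O] AdjoinRoot G)) ^ p = 1) :
    ∃! u : H →ₐ[O] AdjoinRoot (perturb G p k),
      (toConv u.toLinearMap : WithConv (H →ₗ[O] AdjoinRoot (perturb G p k))) ^ p = 1 ∧
      ∀ h, Ideal.Quotient.mk (Ideal.span {AdjoinRoot.root (perturb G p k) ^ k}) (u h) =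
        Ideal.Quotient.factor (H116.span_natCast_mul_le p (AdjoinRoot.root (perturb G p k) ^ k))
          (etaPt G p k x h) := by
  have hG' : IsEis (perturb G p k) := isEis_perturb hG hpA hk0 hke
  have hkp' : (perturb G p k).natDegree * eK < k * (p - 1) := by
    rw [natDegree_perturb hke]; exact hkp
  obtain ⟨mu, hmu, hmu1⟩ := hG'.exists_mu heK hkp'
  have hlam0 : AdjoinRoot.root (perturb G p k) ^ k ≠ 0 := by
    haveI := hG'.isDomain
    exact pow_ne_zero _ hG'.root_ne_zero
  exact H116.exists_unique_lift hG'.completeFiltration hp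
    (fun s hs => hG'.mul_eq_zero_right (hG'.natCast_ne_zero heK) hs)
    (hG'.root_pow_mem hk0) hmu1 (fun s hs => hG'.mul_eq_zero_right hlam0 hs) hmu
    (etaPt G p k x) (H116.conv_pow_eq_one_comp ((perturbHom G p k).restrictScalars O) hx)


/-- **Injectivity of the lifting**: two points of `H` in `B` (of order dividing `p`) with the
same lift to `C` are equal. -/
theorem liftPt_injective [IsAdicComplete (maximalIdeal A) A]
    (hG : IsEis G) (hp : p.Prime) (hpA : (p : A) ∈ maximalIdeal A)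
    (heK : IsDiscreteValuationRing.addVal A (p : A) = eK)
    (hk0 : 0 < k) (hke : k < G.natDegree) (hkp : G.natDegree * eK < k * (p - 1))
    {x x' : H →ₐ[O] AdjoinRoot G}
    (hx : (toConv x.toLinearMap : WithConv (H →ₗ[O] AdjoinRoot G)) ^ p = 1)
    (hx' : (toConv x'.toLinearMap : WithConv (H →ₗ[O] AdjoinRoot G)) ^ p = 1)
    (u : H →ₐ[O] AdjoinRoot (perturb G p k))
    (hu : ∀ h, Ideal.Quotient.mk (Ideal.span {AdjoinRoot.root (perturb G p k) ^ k}) (u h) =
        Ideal.Quotient.factor (H116.span_natCast_mul_le p (AdjoinRoot.root (perturb G p k) ^ k))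
          (etaPt G p k x h))
    (hu' : ∀ h, Ideal.Quotient.mk (Ideal.span {AdjoinRoot.root (perturb G p k) ^ k}) (u h) =
        Ideal.Quotient.factor (H116.span_natCast_mul_le p (AdjoinRoot.root (perturb G p k) ^ k))
          (etaPt G p k x' h)) :
    x' = x := by
  obtain ⟨mu, hmu, hmu1⟩ := hG.exists_mu heK hkp
  have hlam0 : AdjoinRoot.root G ^ k ≠ 0 := by
    have := hG.isDomain
    exact pow_ne_zero _ hG.root_ne_zero
  refine H116.algHom_eq_of_congr hG.completeFiltration hp
    (fun s hs => hG.mul_eq_zero_right (hG.natCast_ne_zero heK) hs)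
    (hG.root_pow_mem hk0) hmu1 (fun s hs => hG.mul_eq_zero_right hlam0 hs) hmu hx hx' ?_
  intro h
  obtain ⟨t, ht⟩ := Ideal.Quotient.mk_surjective (perturbHom G p k (x' h - x h))
  refine mem_span_of_perturbHom_eq hG hpA hk0 hke _ t ?_ ht.symm
  have hle := H116.span_natCast_mul_le p (AdjoinRoot.root (perturb G p k) ^ k)
  have h1 : Ideal.Quotient.factor hle (etaPt G p k x' h) =
      Ideal.Quotient.factor hle (etaPt G p k x h) := by
    rw [← hu, ← hu']
  have ht' : Ideal.Quotient.mk (Ideal.span {(p : AdjoinRoot (perturb G p k)) *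
      AdjoinRoot.root (perturb G p k) ^ k}) t = etaPt G p k x' h - etaPt G p k x h := by
    exact ht.trans (map_sub (perturbHom G p k) (x' h) (x h))
  have h2 : Ideal.Quotient.mk (Ideal.span {AdjoinRoot.root (perturb G p k) ^ k}) t = 0 := by
    rw [← Ideal.Quotient.factor_mk hle t, ht', map_sub, h1, sub_self]
  exact Ideal.Quotient.eq_zero_iff_mem.mp h2

/-- **Stage 1**: if all points of `H` in a field `Ω ⊇ B` are `B`-rational (and there are
finitely many of them), then all of them have values in `C ⊆ Ω`. -/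
theorem point_values_mem_range [IsAdicComplete (maximalIdeal A) A] [Module.Projective O H]
    (hG : IsEis G) (hp : p.Prime) (hpA : (p : A) ∈ maximalIdeal A)
    (heK : IsDiscreteValuationRing.addVal A (p : A) = eK)
    (hk0 : 0 < k) (hke : k < G.natDegree) (hkp : G.natDegree * eK < k * (p - 1))
    {Ω : Type*} [Field Ω] [Algebra A Ω] [Algebra O Ω] [IsScalarTower O A Ω]
    (ι : AdjoinRoot (perturb G p k) →ₐ[A] Ω) (hι : Function.Injective ι)
    (j : AdjoinRoot G →ₐ[A] Ω)
    [Finite (H →ₐ[O] AdjoinRoot G)]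
    (hkill : ∀ x : H →ₐ[O] AdjoinRoot G,
      (toConv x.toLinearMap : WithConv (H →ₗ[O] AdjoinRoot G)) ^ p = 1)
    (hall : ∀ y : H →ₐ[O] Ω, ∃ x : H →ₐ[O] AdjoinRoot G, ∀ h, y h = j (x h))
    (x : H →ₐ[O] AdjoinRoot G) (h : H) : j (x h) ∈ Set.range ι := by
  classical
  have hex := fun x : H →ₐ[O] AdjoinRoot G =>
    (exists_unique_liftPt hG hp hpA heK hk0 hke hkp x (hkill x)).exists
  choose Φ hΦ using hex
  have hΦinj : Function.Injective Φ := by
    intro x x' hxx'
    have h2 := (hΦ x').2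
    rw [← hxx'] at h2
    exact (liftPt_injective hG hp hpA heK hk0 hke hkp (hkill x) (hkill x') (Φ x) (hΦ x).2 h2).symm
  let f : (H →ₐ[O] AdjoinRoot G) → (H →ₐ[O] Ω) := fun x => (j.restrictScalars O).comp x
  let g : (H →ₐ[O] AdjoinRoot G) → (H →ₐ[O] Ω) := fun x => (ι.restrictScalars O).comp (Φ x)
  have hf : Function.Surjective f := by
    intro y
    obtain ⟨x, hx⟩ := hall y
    exact ⟨x, AlgHom.ext fun h => (hx h).symm⟩
  have hg : Function.Injective g := by
    intro x x' hxx'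
    apply hΦinj
    apply AlgHom.ext
    intro h
    apply hι
    exact AlgHom.congr_fun hxx' h
  haveI : Finite (H →ₐ[O] Ω) := Finite.of_surjective f hf
  have hcard : Nat.card (H →ₐ[O] Ω) ≤ Nat.card (H →ₐ[O] AdjoinRoot G) :=
    Nat.card_le_card_of_surjective f hf
  obtain ⟨x', hx'⟩ := (hg.bijective_of_nat_card_le hcard).2 (f x)
  refine ⟨Φ x' h, ?_⟩
  exact AlgHom.congr_fun hx' h

end Points

/-! ### From values to an algebra homomorphism -/

section Values

variable {G G' : A[X]}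

/-- **Stage 2**: if `Frac B` is generated over `Frac A` by a set `S ⊆ B` whose image in the field
`Ω` lies in `C`, then `B → Ω` factors through `C`. -/
theorem exists_algHom_of_values (hG : IsEis G) (hG' : IsEis G')
    {Ω : Type*} [Field Ω] [Algebra A Ω]
    (ι : AdjoinRoot G' →ₐ[A] Ω) (hι : Function.Injective ι) (j : AdjoinRoot G →ₐ[A] Ω)
    (S : Set (AdjoinRoot G)) (hS : ∀ s ∈ S, j s ∈ Set.range ι)
    (hgen : ∀ b : AdjoinRoot G, ∃ a : A, a ≠ 0 ∧ a • b ∈ Algebra.adjoin A S) :
    ∃ ψ : AdjoinRoot G →ₐ[A] AdjoinRoot G', ∀ b, ι (ψ b) = j b := by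
  haveI := hG'.isDomain
  haveI := hG'.isDiscreteValuationRing
  -- values of `adjoin A S`
  have hadj : Algebra.adjoin A S ≤ ι.range.comap j := by
    apply Algebra.adjoin_le
    intro s hs
    exact hS s hs
  obtain ⟨a, ha, hab⟩ := hgen (AdjoinRoot.root G)
  obtain ⟨c₀, hc₀⟩ := hadj hab
  have hc₀' : ι c₀ = algebraMap A Ω a * j (AdjoinRoot.root G) := by
    change ι c₀ = j (a • AdjoinRoot.root G) at hc₀
    rw [hc₀, Algebra.smul_def, map_mul, AlgHom.commutes]
  have hιa : ι (AdjoinRoot.of G' a) = algebraMap A Ω a := ι.commutes a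
  have hofa : AdjoinRoot.of G' a ≠ 0 := fun h => ha (hG'.of_injective (by rw [h, map_zero]))
  have haΩ : algebraMap A Ω a ≠ 0 := by
    rw [← hιa]
    exact fun h => hofa (hι (by rw [h, map_zero]))
  -- the fraction field of `C`
  let E := FractionRing (AdjoinRoot G')
  let φ : E →+* Ω := IsFractionRing.lift (g := (ι : AdjoinRoot G' →+* Ω)) hι
  have hφ : ∀ c, φ (algebraMap (AdjoinRoot G') E c) = ι c := fun c =>
    IsFractionRing.lift_algebraMap hι c
  let z : E := algebraMap (AdjoinRoot G') E c₀ / algebraMap (AdjoinRoot G') E (AdjoinRoot.of G' a)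
  have hz : φ z = j (AdjoinRoot.root G) := by
    rw [map_div₀, hφ, hφ, hc₀', hιa, mul_div_cancel_left₀ _ haΩ]
  have hroot : eval₂ (algebraMap A Ω) (j (AdjoinRoot.root G)) G = 0 := by
    have h1 : aeval (j (AdjoinRoot.root G)) G = j (aeval (AdjoinRoot.root G) G) :=
      aeval_algHom_apply j _ _
    rw [AdjoinRoot.aeval_eq, AdjoinRoot.mk_self, map_zero] at h1
    exact h1
  have hint : IsIntegral (AdjoinRoot G') z := by
    refine ⟨G.map (AdjoinRoot.of G'), hG.monic.map _, ?_⟩
    apply φ.injective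
    rw [map_zero, eval₂_map, Polynomial.hom_eval₂, hz]
    have h2 : (φ.comp ((algebraMap (AdjoinRoot G') E).comp (AdjoinRoot.of G'))) =
        algebraMap A Ω := by
      ext r
      simp only [RingHom.comp_apply]
      rw [hφ]
      exact ι.commutes r
    rw [h2]
    exact hroot
  obtain ⟨c, hc⟩ := IsIntegrallyClosed.isIntegral_iff.mp hint
  have hιc : ι c = j (AdjoinRoot.root G) := by rw [← hφ, hc, hz]
  have hc0 : eval₂ (algebraMap A (AdjoinRoot G')) c G = 0 := by
    apply hι
    have h3 := Polynomial.hom_eval₂ G (algebraMap A (AdjoinRoot G'))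
      (ι : AdjoinRoot G' →+* Ω) c
    have h4 : ((ι : AdjoinRoot G' →+* Ω).comp (algebraMap A (AdjoinRoot G'))) =
        algebraMap A Ω := by
      ext r
      exact ι.commutes r
    rw [h4] at h3
    rw [map_zero]
    refine Eq.trans h3 ?_
    change eval₂ (algebraMap A Ω) (ι c) G = 0
    rw [hιc]
    exact hroot
  refine ⟨AdjoinRoot.liftAlgHom G (Algebra.ofId A (AdjoinRoot G')) c hc0, fun b => ?_⟩
  have h5 : ι.comp (AdjoinRoot.liftAlgHom G (Algebra.ofId A (AdjoinRoot G')) c hc0) = j := by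
    apply AdjoinRoot.algHom_ext
    have h6 : (AdjoinRoot.liftAlgHom G (Algebra.ofId A (AdjoinRoot G')) c hc0)
        (AdjoinRoot.root G) = c := AdjoinRoot.liftAlgHom_root _ _ _ _
    change ι ((AdjoinRoot.liftAlgHom G (Algebra.ofId A (AdjoinRoot G')) c hc0)
        (AdjoinRoot.root G)) = j (AdjoinRoot.root G)
    rw [h6, hιc]
  exact AlgHom.congr_fun h5 b

/-- An Eisenstein extension of `A` embeds into every algebraically closed field containing
`A`. -/
theorem exists_embedding (hG' : IsEis G')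
    {Ω : Type*} [Field Ω] [IsAlgClosed Ω] [Algebra A Ω]
    (hAΩ : Function.Injective (algebraMap A Ω)) :
    ∃ ι : AdjoinRoot G' →ₐ[A] Ω, Function.Injective ι := by
  haveI := hG'.isDomain
  haveI := hG'.isIntegral
  haveI : FaithfulSMul A Ω := (faithfulSMul_iff_algebraMap_injective A Ω).mpr hAΩ
  obtain ⟨r, hr⟩ := IsAlgClosed.exists_aeval_eq_zero Ω G' hG'.degree_ne_zero
  refine ⟨AdjoinRoot.liftAlgHom G' (Algebra.ofId A Ω) r hr, ?_⟩
  rw [← AlgHom.coe_toRingHom, RingHom.injective_iff_ker_eq_bot]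
  apply Ideal.eq_bot_of_comap_eq_bot (R := A)
  rw [eq_bot_iff]
  intro a ha
  rw [Ideal.mem_comap, RingHom.mem_ker] at ha
  have h1 : (AdjoinRoot.liftAlgHom G' (Algebra.ofId A Ω) r hr) (algebraMap A (AdjoinRoot G') a) =
      algebraMap A Ω a := AlgHom.commutes _ a
  have h2 : algebraMap A Ω a = 0 := h1.symm.trans ha
  rw [Ideal.mem_bot]
  exact hAΩ (by rw [h2, map_zero])

end Values

/-! ### The main theorems -/

section Main

open WithConv

variable {G : A[X]} {p k eK : ℕ}
variable {O : Type*} [CommRing O] [Algebra O A]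

/-- **FL-D-PTS** (one Hopf algebra).  `A` a complete DVR, `G` Eisenstein of degree `e`,
`B = A[X]/(G)`, `C = A[X]/(G + p X^k)` with `1 ≤ k < e` and `e e_K < k (p - 1)`.  Let `H` be a
commutative cocommutative `O`-bialgebra, projective as a module, all of whose points in `B` have
order dividing `p`.  Let `Ω ⊇ B` be an algebraically closed field such that all `Ω`-points of `H`
are `B`-rational, there are finitely many of them, and their values generate `Frac B` over
`Frac A`.  Then there is an `A`-algebra homomorphism `B → C`. -/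
theorem exists_algHom_perturb_of_points [IsAdicComplete (maximalIdeal A) A]
    {H : Type*} [CommRing H] [Bialgebra O H] [Coalgebra.IsCocomm O H] [Module.Projective O H]
    (hG : IsEis G) (hp : p.Prime) (hpA : (p : A) ∈ maximalIdeal A)
    (heK : IsDiscreteValuationRing.addVal A (p : A) = eK)
    (hk0 : 0 < k) (hke : k < G.natDegree) (hkp : G.natDegree * eK < k * (p - 1))
    {Ω : Type*} [Field Ω] [IsAlgClosed Ω] [Algebra A Ω] [Algebra O Ω] [IsScalarTower O A Ω]
    (hAΩ : Function.Injective (algebraMap A Ω))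
    (j : AdjoinRoot G →ₐ[A] Ω)
    [Finite (H →ₐ[O] AdjoinRoot G)]
    (hkill : ∀ x : H →ₐ[O] AdjoinRoot G,
      (toConv x.toLinearMap : WithConv (H →ₗ[O] AdjoinRoot G)) ^ p = 1)
    (hall : ∀ y : H →ₐ[O] Ω, ∃ x : H →ₐ[O] AdjoinRoot G, ∀ h, y h = j (x h))
    (hgen : ∀ b : AdjoinRoot G, ∃ a : A, a ≠ 0 ∧
      a • b ∈ Algebra.adjoin A (⋃ x : H →ₐ[O] AdjoinRoot G, Set.range x)) :
    Nonempty (AdjoinRoot G →ₐ[A] AdjoinRoot (perturb G p k)) := by
  have hG' : IsEis (perturb G p k) := isEis_perturb hG hpA hk0 hke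
  obtain ⟨ι, hι⟩ := exists_embedding hG' hAΩ
  obtain ⟨ψ, -⟩ := exists_algHom_of_values hG hG' ι hι j _ (by
    intro s hs
    rw [Set.mem_iUnion] at hs
    obtain ⟨x, h, rfl⟩ := hs
    exact point_values_mem_range hG hp hpA heK hk0 hke hkp ι hι j hkill hall x h) hgen
  exact ⟨ψ⟩

/-- **FL-D-PTS** (two Hopf algebras). -/
theorem exists_algHom_perturb_of_points₂ [IsAdicComplete (maximalIdeal A) A]
    {H₁ : Type*} [CommRing H₁] [Bialgebra O H₁] [Coalgebra.IsCocomm O H₁] [Module.Projective O H₁]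
    {H₂ : Type*} [CommRing H₂] [Bialgebra O H₂] [Coalgebra.IsCocomm O H₂] [Module.Projective O H₂]
    (hG : IsEis G) (hp : p.Prime) (hpA : (p : A) ∈ maximalIdeal A)
    (heK : IsDiscreteValuationRing.addVal A (p : A) = eK)
    (hk0 : 0 < k) (hke : k < G.natDegree) (hkp : G.natDegree * eK < k * (p - 1))
    {Ω : Type*} [Field Ω] [IsAlgClosed Ω] [Algebra A Ω] [Algebra O Ω] [IsScalarTower O A Ω]
    (hAΩ : Function.Injective (algebraMap A Ω))
    (j : AdjoinRoot G →ₐ[A] Ω)
    [Finite (H₁ →ₐ[O] AdjoinRoot G)] [Finite (H₂ →ₐ[O] AdjoinRoot G)]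
    (hkill₁ : ∀ x : H₁ →ₐ[O] AdjoinRoot G,
      (toConv x.toLinearMap : WithConv (H₁ →ₗ[O] AdjoinRoot G)) ^ p = 1)
    (hkill₂ : ∀ x : H₂ →ₐ[O] AdjoinRoot G,
      (toConv x.toLinearMap : WithConv (H₂ →ₗ[O] AdjoinRoot G)) ^ p = 1)
    (hall₁ : ∀ y : H₁ →ₐ[O] Ω, ∃ x : H₁ →ₐ[O] AdjoinRoot G, ∀ h, y h = j (x h))
    (hall₂ : ∀ y : H₂ →ₐ[O] Ω, ∃ x : H₂ →ₐ[O] AdjoinRoot G, ∀ h, y h = j (x h))
    (hgen : ∀ b : AdjoinRoot G, ∃ a : A, a ≠ 0 ∧
      a • b ∈ Algebra.adjoin A ((⋃ x : H₁ →ₐ[O] AdjoinRoot G, Set.range x) ∪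
        (⋃ x : H₂ →ₐ[O] AdjoinRoot G, Set.range x))) :
    Nonempty (AdjoinRoot G →ₐ[A] AdjoinRoot (perturb G p k)) := by
  have hG' : IsEis (perturb G p k) := isEis_perturb hG hpA hk0 hke
  obtain ⟨ι, hι⟩ := exists_embedding hG' hAΩ
  obtain ⟨ψ, -⟩ := exists_algHom_of_values hG hG' ι hι j _ (by
    intro s hs
    rcases hs with hs | hs
    · rw [Set.mem_iUnion] at hs
      obtain ⟨x, h, rfl⟩ := hs
      exact point_values_mem_range hG hp hpA heK hk0 hke hkp ι hι j hkill₁ hall₁ x h
    · rw [Set.mem_iUnion] at hs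
      obtain ⟨x, h, rfl⟩ := hs
      exact point_values_mem_range hG hp hpA heK hk0 hke hkp ι hι j hkill₂ hall₂ x h) hgen
  exact ⟨ψ⟩

/-- **FL-D-PTS** (a family of Hopf algebras). -/
theorem exists_algHom_perturb_of_family [IsAdicComplete (maximalIdeal A) A]
    {I : Type*} (H : I → Type*) [∀ i, CommRing (H i)] [∀ i, Bialgebra O (H i)]
    [∀ i, Coalgebra.IsCocomm O (H i)] [∀ i, Module.Projective O (H i)]
    (hG : IsEis G) (hp : p.Prime) (hpA : (p : A) ∈ maximalIdeal A)
    (heK : IsDiscreteValuationRing.addVal A (p : A) = eK)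
    (hk0 : 0 < k) (hke : k < G.natDegree) (hkp : G.natDegree * eK < k * (p - 1))
    {Ω : Type*} [Field Ω] [IsAlgClosed Ω] [Algebra A Ω] [Algebra O Ω] [IsScalarTower O A Ω]
    (hAΩ : Function.Injective (algebraMap A Ω))
    (j : AdjoinRoot G →ₐ[A] Ω)
    [∀ i, Finite (H i →ₐ[O] AdjoinRoot G)]
    (hkill : ∀ (i : I) (x : H i →ₐ[O] AdjoinRoot G),
      (toConv x.toLinearMap : WithConv (H i →ₗ[O] AdjoinRoot G)) ^ p = 1)
    (hall : ∀ (i : I) (y : H i →ₐ[O] Ω), ∃ x : H i →ₐ[O] AdjoinRoot G, ∀ h, y h = j (x h))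
    (hgen : ∀ b : AdjoinRoot G, ∃ a : A, a ≠ 0 ∧
      a • b ∈ Algebra.adjoin A (⋃ i : I, ⋃ x : H i →ₐ[O] AdjoinRoot G, Set.range x)) :
    Nonempty (AdjoinRoot G →ₐ[A] AdjoinRoot (perturb G p k)) := by
  have hG' : IsEis (perturb G p k) := isEis_perturb hG hpA hk0 hke
  obtain ⟨ι, hι⟩ := exists_embedding hG' hAΩ
  obtain ⟨ψ, -⟩ := exists_algHom_of_values hG hG' ι hι j _ (by
    intro s hs
    rw [Set.mem_iUnion] at hs
    obtain ⟨i, hs⟩ := hs
    rw [Set.mem_iUnion] at hs
    obtain ⟨x, h, rfl⟩ := hs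
    exact point_values_mem_range hG hp hpA heK hk0 hke hkp ι hι j (hkill i) (hall i) x h) hgen
  exact ⟨ψ⟩

/-- **Theorem D, Eisenstein form** (family of Hopf algebras).  Under the hypotheses of
`exists_algHom_perturb_of_family` and `p ∤ k`:  `v(G'(Π)) ≤ e e_K + k - 1`. -/
theorem val_derivative_le_of_family [IsAdicComplete (maximalIdeal A) A]
    {I : Type*} (H : I → Type*) [∀ i, CommRing (H i)] [∀ i, Bialgebra O (H i)]
    [∀ i, Coalgebra.IsCocomm O (H i)] [∀ i, Module.Projective O (H i)]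
    (hG : IsEis G) (hp : p.Prime) (hpA : (p : A) ∈ maximalIdeal A)
    (heK : IsDiscreteValuationRing.addVal A (p : A) = eK)
    (hk0 : 0 < k) (hke : k < G.natDegree) (hpk : ¬ p ∣ k)
    (hkp : G.natDegree * eK < k * (p - 1))
    {Ω : Type*} [Field Ω] [IsAlgClosed Ω] [Algebra A Ω] [Algebra O Ω] [IsScalarTower O A Ω]
    (hAΩ : Function.Injective (algebraMap A Ω))
    (j : AdjoinRoot G →ₐ[A] Ω)
    [∀ i, Finite (H i →ₐ[O] AdjoinRoot G)]
    (hkill : ∀ (i : I) (x : H i →ₐ[O] AdjoinRoot G),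
      (toConv x.toLinearMap : WithConv (H i →ₗ[O] AdjoinRoot G)) ^ p = 1)
    (hall : ∀ (i : I) (y : H i →ₐ[O] Ω), ∃ x : H i →ₐ[O] AdjoinRoot G, ∀ h, y h = j (x h))
    (hgen : ∀ b : AdjoinRoot G, ∃ a : A, a ≠ 0 ∧
      a • b ∈ Algebra.adjoin A (⋃ i : I, ⋃ x : H i →ₐ[O] AdjoinRoot G, Set.range x)) :
    hG.val (aeval (AdjoinRoot.root G) (derivative G)) ≤
      ((G.natDegree * eK + (k - 1) : ℕ) : ℕ∞) := by
  obtain ⟨ψ⟩ := exists_algHom_perturb_of_family H hG hp hpA heK hk0 hke hkp hAΩ j hkill hall hgen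
  exact val_derivative_le_of_algHom hG hp hpA heK hk0 hke hpk ψ

/-- **Theorem D, Eisenstein form** (one Hopf algebra): `v(G'(Π)) ≤ e e_K + k - 1`. -/
theorem val_derivative_le_of_points [IsAdicComplete (maximalIdeal A) A]
    {H : Type*} [CommRing H] [Bialgebra O H] [Coalgebra.IsCocomm O H] [Module.Projective O H]
    (hG : IsEis G) (hp : p.Prime) (hpA : (p : A) ∈ maximalIdeal A)
    (heK : IsDiscreteValuationRing.addVal A (p : A) = eK)
    (hk0 : 0 < k) (hke : k < G.natDegree) (hpk : ¬ p ∣ k)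
    (hkp : G.natDegree * eK < k * (p - 1))
    {Ω : Type*} [Field Ω] [IsAlgClosed Ω] [Algebra A Ω] [Algebra O Ω] [IsScalarTower O A Ω]
    (hAΩ : Function.Injective (algebraMap A Ω))
    (j : AdjoinRoot G →ₐ[A] Ω)
    [Finite (H →ₐ[O] AdjoinRoot G)]
    (hkill : ∀ x : H →ₐ[O] AdjoinRoot G,
      (toConv x.toLinearMap : WithConv (H →ₗ[O] AdjoinRoot G)) ^ p = 1)
    (hall : ∀ y : H →ₐ[O] Ω, ∃ x : H →ₐ[O] AdjoinRoot G, ∀ h, y h = j (x h))
    (hgen : ∀ b : AdjoinRoot G, ∃ a : A, a ≠ 0 ∧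
      a • b ∈ Algebra.adjoin A (⋃ x : H →ₐ[O] AdjoinRoot G, Set.range x)) :
    hG.val (aeval (AdjoinRoot.root G) (derivative G)) ≤
      ((G.natDegree * eK + (k - 1) : ℕ) : ℕ∞) := by
  obtain ⟨ψ⟩ := exists_algHom_perturb_of_points hG hp hpA heK hk0 hke hkp hAΩ j hkill hall hgen
  exact val_derivative_le_of_algHom hG hp hpA heK hk0 hke hpk ψ

/-- **Theorem D, Eisenstein form** (two Hopf algebras): `v(G'(Π)) ≤ e e_K + k - 1`. -/
theorem val_derivative_le_of_points₂ [IsAdicComplete (maximalIdeal A) A]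
    {H₁ : Type*} [CommRing H₁] [Bialgebra O H₁] [Coalgebra.IsCocomm O H₁] [Module.Projective O H₁]
    {H₂ : Type*} [CommRing H₂] [Bialgebra O H₂] [Coalgebra.IsCocomm O H₂] [Module.Projective O H₂]
    (hG : IsEis G) (hp : p.Prime) (hpA : (p : A) ∈ maximalIdeal A)
    (heK : IsDiscreteValuationRing.addVal A (p : A) = eK)
    (hk0 : 0 < k) (hke : k < G.natDegree) (hpk : ¬ p ∣ k)
    (hkp : G.natDegree * eK < k * (p - 1))
    {Ω : Type*} [Field Ω] [IsAlgClosed Ω] [Algebra A Ω] [Algebra O Ω] [IsScalarTower O A Ω]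
    (hAΩ : Function.Injective (algebraMap A Ω))
    (j : AdjoinRoot G →ₐ[A] Ω)
    [Finite (H₁ →ₐ[O] AdjoinRoot G)] [Finite (H₂ →ₐ[O] AdjoinRoot G)]
    (hkill₁ : ∀ x : H₁ →ₐ[O] AdjoinRoot G,
      (toConv x.toLinearMap : WithConv (H₁ →ₗ[O] AdjoinRoot G)) ^ p = 1)
    (hkill₂ : ∀ x : H₂ →ₐ[O] AdjoinRoot G,
      (toConv x.toLinearMap : WithConv (H₂ →ₗ[O] AdjoinRoot G)) ^ p = 1)
    (hall₁ : ∀ y : H₁ →ₐ[O] Ω, ∃ x : H₁ →ₐ[O] AdjoinRoot G, ∀ h, y h = j (x h))
    (hall₂ : ∀ y : H₂ →ₐ[O] Ω, ∃ x : H₂ →ₐ[O] AdjoinRoot G, ∀ h, y h = j (x h))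
    (hgen : ∀ b : AdjoinRoot G, ∃ a : A, a ≠ 0 ∧
      a • b ∈ Algebra.adjoin A ((⋃ x : H₁ →ₐ[O] AdjoinRoot G, Set.range x) ∪
        (⋃ x : H₂ →ₐ[O] AdjoinRoot G, Set.range x))) :
    hG.val (aeval (AdjoinRoot.root G) (derivative G)) ≤
      ((G.natDegree * eK + (k - 1) : ℕ) : ℕ∞) := by
  obtain ⟨ψ⟩ := exists_algHom_perturb_of_points₂ hG hp hpA heK hk0 hke hkp hAΩ j hkill₁ hkill₂
    hall₁ hall₂ hgen
  exact val_derivative_le_of_algHom hG hp hpA heK hk0 hke hpk ψ

end Main

end

end Fermat.Agent.S56.H134.FLD
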