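import Fermat.Agent.S56.H134.StructC

/-!
# S56 / W-FLAT-SS / STRUCT, part D: the different of `B/A` and the bound from a perturbed root

Setting of parts A-C with `a = p` a prime number.

* `derivative_dvd_of_root` (S5): if `G + p X^j` has a root in `B` (`p ∤ j`, `0 < j < e`), then
  `G₀'(ϖ) ∣ ϖ ^ (e + (j - 1))`;
* `differentIdeal_inertiaSub_eq_top`: `𝔇_{B₀/A} = ⊤`;
* `aeval_derivative_mem_differentIdeal_inertiaSub`: `G₀'(ϖ) ∈ 𝔇_{B/B₀}`;
* `aeval_derivative_mem_differentIdeal'` (S4): `G₀'(ϖ) ∈ 𝔇_{B/A}`.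
-/

set_option autoImplicit false
set_option linter.unusedSectionVars false
set_option linter.style.haveILetI false
set_option linter.overlappingInstances false

namespace Fermat.Agent.S56.H134.Struct

open Polynomial IsLocalRing

noncomputable section

variable {A B Γ : Type*} [CommRing A] [IsDomain A] [IsDiscreteValuationRing A]
  [CommRing B] [IsDomain B] [IsDiscreteValuationRing B]
  [Algebra A B] [Module.Finite A B] [FaithfulSMul A B]
  [Group Γ] [Finite Γ] [MulSemiringAction Γ B] [SMulCommClass Γ A B]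
  [Algebra.IsInvariant A B Γ] [FaithfulSMul Γ B] [Finite (ResidueField A)]

/-! ### S5: the bound from a root of the perturbed polynomial -/

variable (Γ) in
theorem derivative_dvd_of_root {p : ℕ} (hp : p.Prime)
    (hA : maximalIdeal A = Ideal.span {(p : A)}) {e : ℕ}
    {G₀ : (inertiaSub A B Γ)[X]} (hG : FLD.IsEis G₀)
    (φ : AdjoinRoot G₀ ≃ₐ[inertiaSub A B Γ] B) (hnat : G₀.natDegree = e)
    {j : ℕ} (hpj : ¬ p ∣ j) (hj0 : 0 < j) (hje : j < e)
    (ϖ' : B) (hroot : aeval ϖ' G₀ + (p : B) * ϖ' ^ j = 0) :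
    aeval (φ (AdjoinRoot.root G₀)) (derivative G₀) ∣
      φ (AdjoinRoot.root G₀) ^ (e + (j - 1)) := by
  have hcast : algebraMap A (inertiaSub A B Γ) (p : A) = (p : inertiaSub A B Γ) :=
    map_natCast _ p
  have hmax : maximalIdeal (inertiaSub A B Γ) = Ideal.span {(p : inertiaSub A B Γ)} := by
    rw [← hcast]
    exact maximalIdeal_inertiaSub Γ hA
  have hpA : (p : inertiaSub A B Γ) ∈ maximalIdeal (inertiaSub A B Γ) := by
    rw [hmax]
    exact Ideal.subset_span rfl
  have heK : IsDiscreteValuationRing.addVal (inertiaSub A B Γ) (p : inertiaSub A B Γ) =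
      ((1 : ℕ) : ℕ∞) := by
    rw [IsDiscreteValuationRing.addVal_uniformizer
      ((IsDiscreteValuationRing.irreducible_iff_uniformizer _).mpr hmax)]
    rfl
  have hje' : j < G₀.natDegree := by rw [hnat]; exact hje
  have hG' : FLD.IsEis (FLD.perturb G₀ p j) := FLD.isEis_perturb hG hpA hj0 hje'
  -- the root gives a homomorphism
  have hroot' : aeval ϖ' (FLD.perturb G₀ p j) = 0 := by
    unfold FLD.perturb
    rw [map_add, map_mul, map_pow, aeval_X, aeval_C, ← hroot,
      map_natCast (algebraMap (inertiaSub A B Γ) B) p]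
  let ψ' : AdjoinRoot (FLD.perturb G₀ p j) →ₐ[inertiaSub A B Γ] B :=
    AdjoinRoot.liftAlgHom _ (Algebra.ofId (inertiaSub A B Γ) B) ϖ' hroot'
  let ψ : AdjoinRoot (FLD.perturb G₀ p j) →ₐ[inertiaSub A B Γ] AdjoinRoot G₀ :=
    (φ.symm : B →ₐ[inertiaSub A B Γ] AdjoinRoot G₀).comp ψ'
  let E := FLD.algEquivOfAlgHom hG' hG ψ (FLD.natDegree_perturb hje')
  have hval := FLD.val_derivative_le_of_algEquiv hG hp hpA heK hj0 hje' hpj E.symm
  rw [hnat, mul_one, ← hG.val_root_pow, hG.val_le_iff_dvd] at hval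
  obtain ⟨t, ht⟩ := hval
  refine ⟨φ t, ?_⟩
  have h1 : φ (aeval (AdjoinRoot.root G₀) (derivative G₀)) =
      aeval (φ (AdjoinRoot.root G₀)) (derivative G₀) :=
    (aeval_algHom_apply (φ : AdjoinRoot G₀ →ₐ[inertiaSub A B Γ] B) _ _).symm
  rw [← h1, ← map_mul, ← ht, map_pow]


/-! ### S4: the different -/

attribute [local instance] FractionRing.liftAlgebra

instance inertiaSub_finite_base : Module.Finite A (inertiaSub A B Γ) :=
  Module.Finite.of_injective (inertiaSub A B Γ).val.toLinearMap Subtype.val_injective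

variable (Γ) in
/-- `B₀/A` is unramified: its different is trivial. -/
theorem differentIdeal_inertiaSub_eq_top [CharZero B] {a : A}
    (hA : maximalIdeal A = Ideal.span {a}) :
    differentIdeal A (inertiaSub A B Γ) = ⊤ := by
  haveI : CharZero A := (algebraMap A B).charZero
  haveI : Finite (A ⧸ maximalIdeal A) := ‹Finite (ResidueField A)›
  by_contra hne
  have hle : differentIdeal A (inertiaSub A B Γ) ≤ maximalIdeal (inertiaSub A B Γ) :=
    le_maximalIdeal hne
  have hdvd : maximalIdeal (inertiaSub A B Γ) ∣ differentIdeal A (inertiaSub A B Γ) :=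
    Ideal.dvd_iff_le.mpr hle
  have hP : maximalIdeal (inertiaSub A B Γ) * ⊤ =
      Ideal.map (algebraMap A (inertiaSub A B Γ)) (maximalIdeal A) := by
    rw [Ideal.mul_top, maximalIdeal_inertiaSub Γ hA, hA, Ideal.map_span, Set.image_singleton]
  have hcop : IsCoprime (maximalIdeal (inertiaSub A B Γ)) (⊤ : Ideal (inertiaSub A B Γ)) :=
    Ideal.isCoprime_iff_sup_eq.mpr (sup_top_eq _)
  exact not_dvd_differentIdeal_of_isCoprime A (maximalIdeal (inertiaSub A B Γ)) ⊤ hcop hP hdvd

variable (Γ) in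
/-- `Frac B` is generated over `Frac B₀` by a uniformizer. -/
theorem adjoin_uniformizer_eq_top {a : A} (hA : maximalIdeal A = Ideal.span {a}) {e : ℕ}
    (he : Ideal.span {algebraMap A B a} = maximalIdeal B ^ e) {ϖ : B} (hϖ : Irreducible ϖ) :
    Algebra.adjoin (FractionRing (inertiaSub A B Γ))
      {algebraMap B (FractionRing B) ϖ} = ⊤ := by
  set S := Algebra.adjoin (FractionRing (inertiaSub A B Γ))
      {algebraMap B (FractionRing B) ϖ} with hS
  have hB : ∀ b : B, algebraMap B (FractionRing B) b ∈ S := by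
    intro b
    obtain ⟨c, hc⟩ := exists_basis_repr Γ hA he hϖ.maximalIdeal_eq b
    rw [hc, map_sum]
    refine S.sum_mem fun i _ => ?_
    rw [map_mul, map_pow]
    refine S.mul_mem ?_ (S.pow_mem (Algebra.subset_adjoin rfl) _)
    have h1 : algebraMap B (FractionRing B) (c i : B) =
        algebraMap (FractionRing (inertiaSub A B Γ)) (FractionRing B)
          (algebraMap (inertiaSub A B Γ) (FractionRing (inertiaSub A B Γ)) (c i)) :=
      (IsScalarTower.algebraMap_apply (inertiaSub A B Γ) B (FractionRing B) (c i)).symm.trans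
        (IsScalarTower.algebraMap_apply (inertiaSub A B Γ)
          (FractionRing (inertiaSub A B Γ)) (FractionRing B) (c i))
    rw [h1]
    exact S.algebraMap_mem _
  rw [eq_top_iff]
  intro x _
  obtain ⟨b, b', -, rfl⟩ := IsFractionRing.div_surjective (A := B) x
  rw [div_eq_mul_inv]
  refine S.mul_mem (hB b) ?_
  exact S.inv_mem_of_algebraic (x := ⟨_, hB b'⟩) (Algebra.IsAlgebraic.isAlgebraic _)


variable (Γ) in
theorem minpoly_eq_of_isEis {ϖ : B} {G₀ : (inertiaSub A B Γ)[X]} (hG : FLD.IsEis G₀)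
    (hroot : aeval ϖ G₀ = 0) : minpoly (inertiaSub A B Γ) ϖ = G₀ := by
  have hint : IsIntegral (inertiaSub A B Γ) ϖ := ⟨G₀, hG.monic, hroot⟩
  obtain ⟨q, hq⟩ := minpoly.isIntegrallyClosed_dvd hint hroot
  have hqu : IsUnit q :=
    (hG.irreducible.isUnit_or_isUnit hq).resolve_left (minpoly.not_isUnit _ ϖ)
  refine eq_of_monic_of_associated (minpoly.monic hint) hG.monic ?_
  obtain ⟨u, hu⟩ := hqu
  exact ⟨u, by rw [hu, ← hq]⟩

variable (Γ) in
/-- `G₀'(ϖ) ∈ 𝔇_{B/B₀}`. -/
theorem aeval_derivative_mem_differentIdeal_inertiaSub [CharZero B] {a : A}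
    (hA : maximalIdeal A = Ideal.span {a}) {e : ℕ}
    (he : Ideal.span {algebraMap A B a} = maximalIdeal B ^ e) {ϖ : B} (hϖ : Irreducible ϖ)
    {G₀ : (inertiaSub A B Γ)[X]} (hG : FLD.IsEis G₀) (hroot : aeval ϖ G₀ = 0) :
    aeval ϖ (derivative G₀) ∈ differentIdeal (inertiaSub A B Γ) B := by
  have h := aeval_derivative_mem_differentIdeal (inertiaSub A B Γ)
    (FractionRing (inertiaSub A B Γ)) (FractionRing B) ϖ (adjoin_uniformizer_eq_top Γ hA he hϖ)
  rwa [minpoly_eq_of_isEis Γ hG hroot] at h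

variable (Γ) in
/-- (S4) `G₀'(ϖ) ∈ 𝔇_{B/A}`. -/
theorem aeval_derivative_mem_differentIdeal_base [CharZero B] {a : A}
    (hA : maximalIdeal A = Ideal.span {a}) {e : ℕ}
    (he : Ideal.span {algebraMap A B a} = maximalIdeal B ^ e) {ϖ : B} (hϖ : Irreducible ϖ)
    {G₀ : (inertiaSub A B Γ)[X]} (hG : FLD.IsEis G₀) (hroot : aeval ϖ G₀ = 0) :
    aeval ϖ (derivative G₀) ∈ differentIdeal A B := by
  haveI : CharZero A := (algebraMap A B).charZero
  rw [differentIdeal_eq_differentIdeal_mul_differentIdeal A (inertiaSub A B Γ) B,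
    differentIdeal_inertiaSub_eq_top Γ hA, Ideal.map_top, Ideal.mul_top]
  exact aeval_derivative_mem_differentIdeal_inertiaSub Γ hA he hϖ hG hroot

end

end Fermat.Agent.S56.H134.Struct
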