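import Fermat.Agent.S56.FL.LMSpec
import Fermat.Agent.S56.H134.StructD

/-!
# S56 / W-FLAT-SS / STRUCT: `FL.StructStatement` (helper134)

`structStatement : Fermat.Agent.S56.FL.StructStatement`, verbatim.

Structure of a Galois extension `B/A` of discrete valuation rings of characteristic `0` with
`𝔪_A = (p)`, finite residue field: the inertia-fixed subring `B' = B^{Γ₀}` is a DVR with
uniformizer `p`, `B = B'[ϖ]` for a uniformizer `ϖ` with Eisenstein minimal polynomial `G`
(the characteristic polynomial of `ϖ` under `Γ₀`), `𝔇_{B/A} ∋ G'(ϖ)`, and a root of `G + p X^j`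
in `B` gives `𝔇_{B/A} ∣ (p) 𝔪_B^{j-1}`.
-/

set_option autoImplicit false
set_option linter.unusedSectionVars false
set_option linter.style.haveILetI false
set_option linter.overlappingInstances false

namespace Fermat.Agent.S56.H134

open Polynomial IsLocalRing

theorem structStatement : Fermat.Agent.S56.FL.StructStatement := by
  intro p _ A B _ _ _ _ _ _ _ _ _ _ Γ _ _ _ _ _ _ hA hκ e he
  have hp : p.Prime := Fact.out
  haveI : Finite (ResidueField A) := Nat.finite_of_card_ne_zero (by rw [hκ]; exact hp.ne_zero)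
  obtain ⟨ϖ, hϖ⟩ := IsDiscreteValuationRing.exists_irreducible B
  have hcastB : algebraMap A B (p : A) = (p : B) := map_natCast _ p
  have he' : Ideal.span {algebraMap A B (p : A)} = maximalIdeal B ^ e := by
    rw [hcastB]; exact he
  obtain ⟨G₀, hG, φ, hmap, hnat, hφ⟩ := Struct.exists_eisEquiv Γ hA he' hϖ
  have hcast : algebraMap A (Struct.inertiaSub A B Γ) (p : A) = (p : Struct.inertiaSub A B Γ) :=
    map_natCast _ p
  have hmax : maximalIdeal (Struct.inertiaSub A B Γ) =
      Ideal.span {(p : Struct.inertiaSub A B Γ)} := by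
    rw [← hcast]
    exact Struct.maximalIdeal_inertiaSub Γ hA
  have hpirr : Irreducible (p : Struct.inertiaSub A B Γ) :=
    (IsDiscreteValuationRing.irreducible_iff_uniformizer _).mpr hmax
  have hroot : aeval ϖ G₀ = 0 := by
    have h1 : aeval (φ (AdjoinRoot.root G₀)) G₀ = φ (aeval (AdjoinRoot.root G₀) G₀) :=
      aeval_algHom_apply (φ : AdjoinRoot G₀ →ₐ[Struct.inertiaSub A B Γ] B) _ _
    rw [hφ, AdjoinRoot.aeval_eq, AdjoinRoot.mk_self, map_zero] at h1
    exact h1
  have hcoeB : ∀ x : Struct.inertiaSub A B Γ,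
      algebraMap (Struct.inertiaSub A B Γ) B x = (x : B) := fun _ => rfl
  refine ⟨(Struct.inertiaSub A B Γ).toSubring, ϖ, G₀.map (algebraMap _ B), ?_, ?_, ?_, ?_, ?_,
    ?_, ?_, ?_, ?_, ?_, ?_⟩
  · intro a
    exact (Struct.inertiaSub A B Γ).algebraMap_mem a
  · intro b hb hb0
    have hb0' : (⟨b, hb⟩ : Struct.inertiaSub A B Γ) ≠ 0 := fun h => hb0 (congrArg Subtype.val h)
    obtain ⟨n, u, hu⟩ := IsDiscreteValuationRing.eq_unit_mul_pow_irreducible hb0' hpirr
    refine ⟨n, ((u : Struct.inertiaSub A B Γ) : B), (u : Struct.inertiaSub A B Γ).2,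
      (Struct.isUnit_iff _).mp u.isUnit, ?_⟩
    have h1 := congrArg Subtype.val hu
    rw [mul_comm]
    simpa using h1
  · exact hϖ.maximalIdeal_eq
  · intro b
    obtain ⟨c, hc⟩ := Struct.exists_basis_repr Γ hA he' hϖ.maximalIdeal_eq b
    exact ⟨fun i => (c i : B), fun i => (c i).2, hc⟩
  · exact hG.monic.map _
  · rw [hG.monic.natDegree_map, hnat]
  · intro i
    rw [coeff_map]
    exact (G₀.coeff i).2
  · intro i hi
    have h1 : G₀.coeff i ∈ maximalIdeal (Struct.inertiaSub A B Γ) :=
      hG.coeff_mem (by rw [hnat]; exact hi)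
    rw [hmax, Ideal.mem_span_singleton] at h1
    obtain ⟨t, ht⟩ := h1
    rw [coeff_map, ht, map_mul, map_natCast, Ideal.mem_span_singleton]
    exact Dvd.intro _ rfl
  · obtain ⟨u, hu⟩ := IsDiscreteValuationRing.associated_of_irreducible _ hpirr
      hG.coeff_zero_irreducible
    refine ⟨((u : Struct.inertiaSub A B Γ) : B), (Struct.isUnit_iff _).mp u.isUnit, ?_⟩
    rw [coeff_map, ← hu, map_mul, map_natCast]
    rfl
  · rw [eval_map, ← aeval_def]
    exact hroot
  · intro j hpj hj0 hje hex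
    obtain ⟨ϖ', hϖ'⟩ := hex
    rw [eval_map, ← aeval_def] at hϖ'
    have hdvd := Struct.derivative_dvd_of_root Γ hp hA hG φ hnat hpj hj0 hje ϖ' hϖ'
    rw [hφ] at hdvd
    have hmem := Struct.aeval_derivative_mem_differentIdeal_base Γ hA he' hϖ hG hroot
    have hpow : ϖ ^ (e + (j - 1)) ∈ differentIdeal A B := by
      obtain ⟨t, ht⟩ := hdvd
      rw [ht]
      exact Ideal.mul_mem_right _ _ hmem
    rw [Ideal.dvd_iff_le, he, ← pow_add, hϖ.maximalIdeal_eq, Ideal.span_singleton_pow,
      Ideal.span_singleton_le_iff_mem]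
    exact hpow

end Fermat.Agent.S56.H134
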