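import Mathlib

/-!
# S56 / W-FLAT-SS / STRUCT, part A: the inertia-fixed subring of a Galois extension of DVRs

`B` a discrete valuation ring with an action of a finite group `Γ`, `A` a base ring commuting with
the action.  `Γ₀ = inertia Γ 𝔪_B`, `B₀ = B^{Γ₀}` (`inertiaSub`).

* `inertiaSub.isUnit_iff`, `inertiaSub.isLocalRing`, `inertiaSub.isLocalHom`;
* `inertiaSub.isDiscreteValuationRing`: `B₀` is a DVR as soon as it contains a nonzero nonunit;
* `inertiaSub.exists_sub_mem` (F1): if the residue field of `B` is finite, every element of `B` is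
  congruent modulo `𝔪_B` to an element of `B₀`.
-/

set_option autoImplicit false
set_option linter.unusedSectionVars false
set_option linter.style.haveILetI false
set_option linter.overlappingInstances false

namespace Fermat.Agent.S56.H134.Struct

open Polynomial IsLocalRing

noncomputable section

variable (A B Γ : Type*) [CommRing A] [CommRing B] [Algebra A B]
  [Group Γ] [MulSemiringAction Γ B] [SMulCommClass Γ A B] [IsLocalRing B]

/-- The inertia subgroup of `Γ` at the maximal ideal of the local ring `B`. -/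
abbrev inertiaGrp : Subgroup Γ := Ideal.inertia Γ (maximalIdeal B)

/-- The inertia-fixed subalgebra `B₀ = B^{Γ₀}`. -/
def inertiaSub : Subalgebra A B := FixedPoints.subalgebra A B (inertiaGrp B Γ)

variable {A B Γ}

theorem mem_inertiaGrp {σ : Γ} : σ ∈ inertiaGrp B Γ ↔ ∀ b : B, σ • b - b ∈ maximalIdeal B :=
  Iff.rfl

theorem mem_inertiaSub {b : B} : b ∈ inertiaSub A B Γ ↔ ∀ σ ∈ inertiaGrp B Γ, σ • b = b := by
  constructor
  · intro h σ hσ
    exact h ⟨σ, hσ⟩
  · intro h σ
    exact h σ.1 σ.2

instance inertiaSub_isInvariant :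
    Algebra.IsInvariant (inertiaSub A B Γ) B (inertiaGrp B Γ) :=
  ⟨fun b hb => ⟨⟨b, fun σ => hb σ⟩, rfl⟩⟩


/-! ### Units and locality -/

section Units

variable [IsDomain B]

theorem mem_of_mul_mem {x y : B} (hx : x ∈ inertiaSub A B Γ) (hx0 : x ≠ 0)
    (hxy : x * y ∈ inertiaSub A B Γ) : y ∈ inertiaSub A B Γ := by
  rw [mem_inertiaSub] at *
  intro σ hσ
  have h1 := hxy σ hσ
  rw [smul_mul', hx σ hσ] at h1
  exact mul_left_cancel₀ hx0 h1

theorem isUnit_iff (x : inertiaSub A B Γ) : IsUnit x ↔ IsUnit (x : B) := by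
  constructor
  · exact fun h => h.map (inertiaSub A B Γ).val
  · intro h
    obtain ⟨y, hy⟩ := h.exists_right_inv
    have hx0 : (x : B) ≠ 0 := h.ne_zero
    have hy' : y ∈ inertiaSub A B Γ := mem_of_mul_mem x.2 hx0 (by rw [hy]; exact one_mem _)
    exact IsUnit.of_mul_eq_one (⟨y, hy'⟩ : inertiaSub A B Γ) (Subtype.ext hy)

instance inertiaSub_isLocalRing : IsLocalRing (inertiaSub A B Γ) :=
  IsLocalRing.of_nonunits_add (by
    intro a b ha hb
    rw [mem_nonunits_iff, isUnit_iff] at *
    have ha' : (a : B) ∈ nonunits B := ha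
    have hb' : (b : B) ∈ nonunits B := hb
    exact IsLocalRing.nonunits_add ha' hb')

instance inertiaSub_isLocalHom : IsLocalHom (algebraMap (inertiaSub A B Γ) B) :=
  ⟨fun x hx => (isUnit_iff x).mpr hx⟩

theorem mem_maximalIdeal_iff (x : inertiaSub A B Γ) :
    x ∈ maximalIdeal (inertiaSub A B Γ) ↔ (x : B) ∈ maximalIdeal B := by
  rw [mem_maximalIdeal, mem_maximalIdeal, mem_nonunits_iff, mem_nonunits_iff, isUnit_iff]

end Units

/-! ### `B₀` is a discrete valuation ring -/

section DVR

variable [IsDomain B] [IsDiscreteValuationRing B]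

open IsDiscreteValuationRing in
theorem hasFactorization (h : ∃ x : inertiaSub A B Γ, x ≠ 0 ∧ ¬ IsUnit x) :
    HasUnitMulPowIrreducibleFactorization (inertiaSub A B Γ) := by
  classical
  let S : Set ℕ := {n | ∃ x : inertiaSub A B Γ, x ≠ 0 ∧ ¬ IsUnit x ∧ addVal B (x : B) = (n : ℕ∞)}
  have hval : ∀ x : inertiaSub A B Γ, x ≠ 0 → ∃ n : ℕ, addVal B (x : B) = (n : ℕ∞) := by
    intro x hx
    have : addVal B (x : B) ≠ ⊤ := by
      rw [Ne, addVal_eq_top_iff]
      exact fun h0 => hx (Subtype.ext h0)
    obtain ⟨n, hn⟩ := ENat.ne_top_iff_exists.mp this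
    exact ⟨n, hn.symm⟩
  have hS : S.Nonempty := by
    obtain ⟨x, hx0, hxu⟩ := h
    obtain ⟨n, hn⟩ := hval x hx0
    exact ⟨n, x, hx0, hxu, hn⟩
  obtain ⟨ϖ, hϖ0, hϖu, hϖv⟩ := Nat.sInf_mem hS
  set d := sInf S with hd
  have hmin : ∀ x : inertiaSub A B Γ, x ≠ 0 → ¬ IsUnit x → ∀ n : ℕ,
      addVal B (x : B) = (n : ℕ∞) → d ≤ n := fun x hx0 hxu n hn =>
    Nat.sInf_le ⟨x, hx0, hxu, hn⟩
  have hdpos : 0 < d := by
    rcases Nat.eq_zero_or_pos d with h0 | h0
    · exfalso
      rw [h0] at hϖv
      apply hϖu
      rw [isUnit_iff]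
      exact addVal_eq_zero_iff.mp (by simpa using hϖv)
    · exact h0
  refine ⟨ϖ, ?_, ?_⟩
  · rw [irreducible_iff]
    refine ⟨hϖu, fun a b hab => ?_⟩
    by_contra hcon
    push Not at hcon
    have ha0 : a ≠ 0 := by
      rintro rfl
      rw [zero_mul] at hab
      exact hϖ0 hab
    have hb0 : b ≠ 0 := by
      rintro rfl
      rw [mul_zero] at hab
      exact hϖ0 hab
    obtain ⟨na, hna⟩ := hval a ha0
    obtain ⟨nb, hnb⟩ := hval b hb0
    have h1 := hmin a ha0 hcon.1 na hna
    have h2 := hmin b hb0 hcon.2 nb hnb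
    have h3 : addVal B (ϖ : B) = addVal B (a : B) + addVal B (b : B) := by
      rw [hab]
      exact (addVal B).map_mul _ _
    rw [hϖv, hna, hnb] at h3
    have h4 : d = na + nb := by exact_mod_cast h3
    omega
  · intro x hx0
    obtain ⟨n, hn⟩ := hval x hx0
    induction n using Nat.strong_induction_on generalizing x with
    | _ n ih =>
      by_cases hxu : IsUnit x
      · exact ⟨0, by rw [pow_zero]; exact (associated_one_iff_isUnit.mpr hxu).symm⟩
      · have hdn := hmin x hx0 hxu n hn
        have hdvd : (ϖ : B) ∣ (x : B) := by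
          rw [← addVal_le_iff_dvd, hϖv, hn]
          exact_mod_cast hdn
        obtain ⟨y, hy⟩ := hdvd
        have hϖ0' : (ϖ : B) ≠ 0 := fun h0 => hϖ0 (Subtype.ext h0)
        have hymem : y ∈ inertiaSub A B Γ := mem_of_mul_mem ϖ.2 hϖ0' (by rw [← hy]; exact x.2)
        have hy0 : (⟨y, hymem⟩ : inertiaSub A B Γ) ≠ 0 := by
          intro h0
          have : y = 0 := congrArg Subtype.val h0
          rw [this, mul_zero] at hy
          exact hx0 (Subtype.ext hy)
        obtain ⟨k, hk⟩ := hval ⟨y, hymem⟩ hy0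
        have h3 : addVal B (x : B) = addVal B (ϖ : B) + addVal B y := by
          rw [hy]
          exact (addVal B).map_mul _ _
        rw [hn, hϖv] at h3
        have hk' : addVal B y = (k : ℕ∞) := hk
        rw [hk'] at h3
        have h4 : n = d + k := by exact_mod_cast h3
        obtain ⟨m, hm⟩ := ih k (by omega) (x := ⟨y, hymem⟩) hy0 hk
        refine ⟨m + 1, ?_⟩
        have hx : x = ϖ * ⟨y, hymem⟩ := Subtype.ext hy
        rw [hx, pow_succ']
        exact Associated.mul_left ϖ hm

/-- `B₀` is a discrete valuation ring as soon as it contains a nonzero nonunit. -/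
theorem inertiaSub_isDiscreteValuationRing (h : ∃ x : inertiaSub A B Γ, x ≠ 0 ∧ ¬ IsUnit x) :
    IsDiscreteValuationRing (inertiaSub A B Γ) :=
  IsDiscreteValuationRing.ofHasUnitMulPowIrreducibleFactorization (hasFactorization h)

end DVR


/-! ### (F1): the residue field of `B₀` is the residue field of `B` -/

section Residue

variable [IsDomain B] [Finite Γ] [Finite (ResidueField B)]

theorem residue_smul_eq (b : B) (σ : inertiaGrp B Γ) :
    residue B (σ • b) = residue B b := by
  rw [← sub_eq_zero, ← map_sub, residue_eq_zero_iff]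
  exact σ.2 b

/-- (F1) Every residue class of `B` has a representative in the inertia-fixed subring. -/
theorem residue_mem_range (b : B) :
    residue B b ∈ (algebraMap (ResidueField (inertiaSub A B Γ)) (ResidueField B)).range := by
  classical
  letI : Fintype (inertiaGrp B Γ) := Fintype.ofFinite _
  haveI : Finite (ResidueField (inertiaSub A B Γ)) :=
    Finite.of_injective _ (algebraMap (ResidueField (inertiaSub A B Γ)) (ResidueField B)).injective
  -- the characteristic polynomial of `b` over `B₀`
  obtain ⟨f, hf, -, hfm⟩ := Polynomial.lifts_and_degree_eq_and_monic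
    (Algebra.IsInvariant.charpoly_mem_lifts (inertiaSub A B Γ) B (inertiaGrp B Γ) b)
    (MulSemiringAction.monic_charpoly (inertiaGrp B Γ) b)
  set fbar : (ResidueField (inertiaSub A B Γ))[X] := f.map (residue (inertiaSub A B Γ)) with hfbar
  have hsq : (algebraMap (ResidueField (inertiaSub A B Γ)) (ResidueField B)).comp
      (residue (inertiaSub A B Γ)) = (residue B).comp (algebraMap (inertiaSub A B Γ) B) := by
    ext r
    rfl
  have hmap : fbar.map (algebraMap (ResidueField (inertiaSub A B Γ)) (ResidueField B)) =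
      (X - C (residue B b)) ^ (Fintype.card (inertiaGrp B Γ)) := by
    rw [hfbar, Polynomial.map_map, hsq, ← Polynomial.map_map, hf,
      MulSemiringAction.charpoly_eq, Polynomial.map_prod]
    simp only [Polynomial.map_sub, Polynomial.map_X, Polynomial.map_C, residue_smul_eq]
    rw [Finset.prod_const, Finset.card_univ]
  have hcard : Fintype.card (inertiaGrp B Γ) ≠ 0 := Fintype.card_ne_zero
  have hroot : aeval (residue B b) fbar = 0 := by
    rw [aeval_def, ← eval_map, hmap, eval_pow, eval_sub, eval_X, eval_C, sub_self,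
      zero_pow hcard]
  have hint : IsIntegral (ResidueField (inertiaSub A B Γ)) (residue B b) :=
    ⟨fbar, hfm.map _, hroot⟩
  have hdvd := minpoly.dvd (ResidueField (inertiaSub A B Γ)) (residue B b) hroot
  have hsep : (minpoly (ResidueField (inertiaSub A B Γ)) (residue B b)).Separable :=
    PerfectField.separable_of_irreducible (minpoly.irreducible hint)
  have hdvd' : (minpoly (ResidueField (inertiaSub A B Γ)) (residue B b)).map
      (algebraMap (ResidueField (inertiaSub A B Γ)) (ResidueField B)) ∣
      (X - C (residue B b)) ^ (Fintype.card (inertiaGrp B Γ)) := by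
    rw [← hmap]
    exact Polynomial.map_dvd _ hdvd
  have hdvd'' := (hsep.map (f := algebraMap (ResidueField (inertiaSub A B Γ))
    (ResidueField B))).squarefree.dvd_pow_iff_dvd hcard |>.mp hdvd'
  have hdeg1 : ((minpoly (ResidueField (inertiaSub A B Γ)) (residue B b)).map
      (algebraMap (ResidueField (inertiaSub A B Γ)) (ResidueField B))).degree ≤ 1 := by
    have := Polynomial.degree_le_of_dvd hdvd'' (X_sub_C_ne_zero _)
    rwa [degree_X_sub_C] at this
  rw [Polynomial.degree_map] at hdeg1
  have hdeg2 := minpoly.degree_pos hint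
  have hdeg : (minpoly (ResidueField (inertiaSub A B Γ)) (residue B b)).degree = 1 := by
    apply le_antisymm hdeg1
    exact Nat.WithBot.one_le_iff_zero_lt.mpr hdeg2
  exact minpoly.mem_range_of_degree_eq_one _ _ hdeg

/-- (F1) Every element of `B` is congruent modulo `𝔪_B` to an element of `B₀`. -/
theorem exists_sub_mem (b : B) : ∃ b' ∈ inertiaSub A B Γ, b - b' ∈ maximalIdeal B := by
  obtain ⟨c, hc⟩ := residue_mem_range (A := A) (Γ := Γ) b
  obtain ⟨c', rfl⟩ := residue_surjective c
  refine ⟨(c' : B), c'.2, ?_⟩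
  rw [← residue_eq_zero_iff, map_sub, sub_eq_zero, ← hc]
  rfl

end Residue

end

end Fermat.Agent.S56.H134.Struct
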