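import Fermat.Agent.S56.H134.StructA

/-!
# S56 / W-FLAT-SS / STRUCT, part B: `p` is a uniformizer of the inertia-fixed subring

`A ⊂ B` discrete valuation rings, `B/A` Galois with group `Γ`, `𝔪_A = (p)`, `κ_A` finite,
`(p) B = 𝔪_B ^ e`.  Then

* `card_inertiaGrp`: `|Γ₀| = e`;
* `inertiaSub_dvr`: `B₀ = B^{Γ₀}` is a discrete valuation ring;
* `maximalIdeal_inertiaSub` (F2): `𝔪_{B₀} = (p)`.
-/

set_option autoImplicit false
set_option linter.unusedSectionVars false
set_option linter.style.haveILetI false
set_option linter.overlappingInstances false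

namespace Fermat.Agent.S56.H134.Struct

open Polynomial IsLocalRing

noncomputable section

variable {A B Γ : Type*} [CommRing A] [IsDomain A] [IsDiscreteValuationRing A]
  [CommRing B] [IsDomain B] [IsDiscreteValuationRing B]
  [Algebra A B] [Module.Finite A B] [FaithfulSMul A B]
  [Group Γ] [Finite Γ] [MulSemiringAction Γ B] [SMulCommClass Γ A B]
  [Algebra.IsInvariant A B Γ] [FaithfulSMul Γ B]

instance inertiaSub_smulCommClass : SMulCommClass (inertiaGrp B Γ) (inertiaSub A B Γ) B :=
  inferInstanceAs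
    (SMulCommClass (inertiaGrp B Γ) (FixedPoints.subalgebra A B (inertiaGrp B Γ)) B)

theorem pow_not_le_pow_succ (n : ℕ) : ¬ maximalIdeal B ^ n ≤ maximalIdeal B ^ (n + 1) := by
  have h := Ideal.pow_succ_lt_pow (P := maximalIdeal B)
    (IsDiscreteValuationRing.not_a_field B) n
  exact not_le_of_gt h

/-- The ramification index of `B` over a subring `R` in terms of `𝔪_R B = 𝔪_B ^ n`. -/
theorem ramificationIdx_eq_of_map_eq {R : Type*} [CommRing R] [IsDomain R] [IsLocalRing R]
    [Algebra R B] [Module.IsTorsionFree R B] [(maximalIdeal B).LiesOver (maximalIdeal R)]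
    (hR : maximalIdeal R ≠ ⊥) {n : ℕ}
    (h : (maximalIdeal R).map (algebraMap R B) = maximalIdeal B ^ n) :
    (maximalIdeal B).ramificationIdx R = n := by
  rw [← Ideal.ramificationIdx'_eq_ramificationIdx (maximalIdeal R) (maximalIdeal B) hR]
  apply Ideal.ramificationIdx'_spec
  · rw [h]
  · rw [h]
    exact pow_not_le_pow_succ n

variable (A Γ) in
/-- `|Γ₀| = e`. -/
theorem card_inertiaGrp [Finite (ResidueField A)] {e : ℕ}
    (he : (maximalIdeal A).map (algebraMap A B) = maximalIdeal B ^ e) :
    Nat.card (inertiaGrp B Γ) = e := by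
  haveI : IsGaloisGroup Γ A B := ⟨inferInstance, inferInstance, inferInstance⟩
  haveI : Finite (A ⧸ maximalIdeal A) := ‹Finite (ResidueField A)›
  have h1 := Ideal.card_inertia_eq_ramificationIdxIn (G := Γ) (maximalIdeal A) (maximalIdeal B)
  rw [Ideal.ramificationIdxIn_eq_ramificationIdx (maximalIdeal A) (maximalIdeal B) Γ,
    ramificationIdx_eq_of_map_eq (IsDiscreteValuationRing.not_a_field A) he] at h1
  exact h1


omit [Algebra A B] [Module.Finite A B] [FaithfulSMul A B] [IsDomain A]
  [IsDiscreteValuationRing A] [CommRing A] [SMulCommClass Γ A B] [Algebra.IsInvariant A B Γ]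
  [FaithfulSMul Γ B] [MulSemiringAction Γ B] [Finite Γ] [Group Γ] in
theorem span_eq_pow_iff {x : B} {n : ℕ} :
    Ideal.span {x} = maximalIdeal B ^ n ↔ IsDiscreteValuationRing.addVal B x = n := by
  obtain ⟨ϖ, hϖ⟩ := IsDiscreteValuationRing.exists_irreducible B
  rw [hϖ.maximalIdeal_eq, Ideal.span_singleton_pow, Ideal.span_singleton_eq_span_singleton,
    ← IsDiscreteValuationRing.addVal_eq_iff_associated, IsDiscreteValuationRing.addVal_pow,
    IsDiscreteValuationRing.addVal_uniformizer hϖ]
  simp

variable (A Γ) in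
/-- `B₀` is a discrete valuation ring. -/
theorem inertiaSub_dvr : IsDiscreteValuationRing (inertiaSub A B Γ) := by
  obtain ⟨ϖ, hϖ⟩ := IsDiscreteValuationRing.exists_irreducible A
  apply inertiaSub_isDiscreteValuationRing
  refine ⟨algebraMap A (inertiaSub A B Γ) ϖ, ?_, ?_⟩
  · intro h
    have h1 : algebraMap A B ϖ = 0 := congrArg Subtype.val h
    exact hϖ.ne_zero (FaithfulSMul.algebraMap_injective A B (by rw [h1, map_zero]))
  · rw [isUnit_iff]
    intro hu
    have hu' : IsUnit (algebraMap A B ϖ) := hu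
    exact hϖ.not_isUnit (isUnit_of_map_unit (algebraMap A B) ϖ hu')

variable (Γ) in
/-- (F2) A uniformizer of `A` is a uniformizer of `B₀`: `B₀/A` is unramified. -/
theorem maximalIdeal_inertiaSub [Finite (ResidueField A)] {a : A}
    (hA : maximalIdeal A = Ideal.span {a}) :
    maximalIdeal (inertiaSub A B Γ) = Ideal.span {algebraMap A (inertiaSub A B Γ) a} := by
  haveI := inertiaSub_dvr A (B := B) Γ
  haveI : Finite (ResidueField B) := Module.finite_of_finite (ResidueField A)
  haveI : Finite (ResidueField (inertiaSub A B Γ)) :=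
    Finite.of_injective _ (algebraMap (ResidueField (inertiaSub A B Γ)) (ResidueField B)).injective
  haveI : Finite ((inertiaSub A B Γ) ⧸ maximalIdeal (inertiaSub A B Γ)) :=
    ‹Finite (ResidueField (inertiaSub A B Γ))›
  haveI : Module.Finite (inertiaSub A B Γ) B := Module.Finite.of_restrictScalars_finite A _ B
  haveI : IsGaloisGroup (inertiaGrp B Γ) (inertiaSub A B Γ) B :=
    ⟨inferInstance, inferInstance, inferInstance⟩
  -- the ramification index `e` of `B/A`
  have ha0 : algebraMap A B a ≠ 0 := by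
    intro h
    have : a = 0 := FaithfulSMul.algebraMap_injective A B (by rw [h, map_zero])
    rw [this, Ideal.span_singleton_eq_bot.mpr rfl] at hA
    exact IsDiscreteValuationRing.not_a_field A hA
  obtain ⟨e, he⟩ := ENat.ne_top_iff_exists.mp
    (show IsDiscreteValuationRing.addVal B (algebraMap A B a) ≠ ⊤ from
      fun h => ha0 (IsDiscreteValuationRing.addVal_eq_top_iff.mp h))
  have hmapA : (maximalIdeal A).map (algebraMap A B) = maximalIdeal B ^ e := by
    rw [hA, Ideal.map_span, Set.image_singleton, span_eq_pow_iff, ← he]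
  have hcard := card_inertiaGrp A Γ hmapA
  -- the ramification index `d` of `B/B₀`
  obtain ⟨ϖ, hϖ⟩ := IsDiscreteValuationRing.exists_irreducible (inertiaSub A B Γ)
  have hϖ0 : (ϖ : B) ≠ 0 := fun h => hϖ.ne_zero (Subtype.ext h)
  obtain ⟨d, hd⟩ := ENat.ne_top_iff_exists.mp
    (show IsDiscreteValuationRing.addVal B (ϖ : B) ≠ ⊤ from
      fun h => hϖ0 (IsDiscreteValuationRing.addVal_eq_top_iff.mp h))
  have hmapB : (maximalIdeal (inertiaSub A B Γ)).map (algebraMap (inertiaSub A B Γ) B) =
      maximalIdeal B ^ d := by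
    rw [hϖ.maximalIdeal_eq, Ideal.map_span, Set.image_singleton, span_eq_pow_iff]
    exact hd.symm
  have h1 := Ideal.card_inertia_eq_ramificationIdxIn (G := inertiaGrp B Γ)
    (maximalIdeal (inertiaSub A B Γ)) (maximalIdeal B)
  rw [Ideal.ramificationIdxIn_eq_ramificationIdx (maximalIdeal (inertiaSub A B Γ))
    (maximalIdeal B) (inertiaGrp B Γ),
    ramificationIdx_eq_of_map_eq (IsDiscreteValuationRing.not_a_field _) hmapB] at h1
  have htop : Ideal.inertia (inertiaGrp B Γ) (maximalIdeal B) = ⊤ := by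
    rw [eq_top_iff]
    intro σ _
    exact fun b => σ.2 b
  rw [htop, Subgroup.card_top, hcard] at h1
  -- `ϖ` and `a` are associated
  have hval : IsDiscreteValuationRing.addVal B (ϖ : B) =
      IsDiscreteValuationRing.addVal B (algebraMap A B a) := by
    rw [← hd, ← he, h1]
  obtain ⟨u, hu⟩ := (IsDiscreteValuationRing.addVal_eq_iff_associated _ _).mp hval
  have humem : (u : B) ∈ inertiaSub A B Γ :=
    mem_of_mul_mem ϖ.2 hϖ0 (by rw [hu]; exact (algebraMap A (inertiaSub A B Γ) a).2)
  have huu : IsUnit (⟨(u : B), humem⟩ : inertiaSub A B Γ) := (isUnit_iff _).mpr u.isUnit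
  rw [hϖ.maximalIdeal_eq, Ideal.span_singleton_eq_span_singleton]
  refine ⟨huu.unit, ?_⟩
  exact Subtype.ext hu

end

end Fermat.Agent.S56.H134.Struct
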