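import Fermat.Agent.S56.H134.StructB
import Fermat.Agent.S56.H134.FLDIso

/-!
# S56 / W-FLAT-SS / STRUCT, part C: Eisenstein presentation `B = B₀[ϖ]`

`A ⊂ B` discrete valuation rings, `B/A` Galois with group `Γ`, `𝔪_A = (a)`, `κ_A` finite,
`(a) B = 𝔪_B ^ e`, `B₀ = B^{Γ₀}` the inertia-fixed subring, `ϖ` a uniformizer of `B`.

* `exists_basis_repr`: every `b ∈ B` is `∑_{i<e} c_i ϖ^i` with `c_i ∈ B₀` (Nakayama);
* `eisPoly`: the characteristic polynomial `G₀ = ∏_{σ ∈ Γ₀} (X - σ ϖ) ∈ B₀[X]`, `isEis_eisPoly`;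
* `eisEquiv : AdjoinRoot G₀ ≃ₐ[B₀] B`, `root ↦ ϖ`.
-/

set_option autoImplicit false
set_option linter.unusedSectionVars false
set_option linter.style.haveILetI false
set_option linter.overlappingInstances false

namespace Fermat.Agent.S56.H134.Struct

open Polynomial IsLocalRing

noncomputable section

variable {A B Γ : Type*} [CommRing A] [IsDomain A] [IsDiscreteValuationRing A]
  [CommRing B] [IsDomain B] [IsDiscreteValuationRing B]
  [Algebra A B] [Module.Finite A B] [FaithfulSMul A B]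
  [Group Γ] [Finite Γ] [MulSemiringAction Γ B] [SMulCommClass Γ A B]
  [Algebra.IsInvariant A B Γ] [FaithfulSMul Γ B] [Finite (ResidueField A)]

variable (Γ) in
/-- Every element of `B` is a `B₀`-combination of `1, ϖ, …, ϖ^(e-1)`. -/
theorem exists_basis_repr {a : A} (hA : maximalIdeal A = Ideal.span {a})
    {e : ℕ} (he : Ideal.span {algebraMap A B a} = maximalIdeal B ^ e)
    {ϖ : B} (hϖ : maximalIdeal B = Ideal.span {ϖ}) (b : B) :
    ∃ c : Fin e → inertiaSub A B Γ, b = ∑ i, (c i : B) * ϖ ^ (i : ℕ) := by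
  haveI := inertiaSub_dvr A (B := B) Γ
  haveI : Finite (ResidueField B) := Module.finite_of_finite (ResidueField A)
  haveI : Module.Finite (inertiaSub A B Γ) B := Module.Finite.of_restrictScalars_finite A _ B
  let v : Fin e → B := fun i => ϖ ^ (i : ℕ)
  set N : Submodule (inertiaSub A B Γ) B := Submodule.span (inertiaSub A B Γ) (Set.range v)
    with hN
  -- successive approximation
  have key : ∀ i ≤ e, ∀ b : B, ∃ n ∈ N, b - n ∈ maximalIdeal B ^ i := by
    intro i
    induction i with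
    | zero =>
      intro _ b
      exact ⟨0, N.zero_mem, by simp⟩
    | succ i ih =>
      intro hi b
      obtain ⟨n, hn, hbn⟩ := ih (Nat.le_of_succ_le hi) b
      rw [hϖ, Ideal.span_singleton_pow, Ideal.mem_span_singleton] at hbn
      obtain ⟨c, hc⟩ := hbn
      obtain ⟨c', hc', hcc'⟩ := exists_sub_mem (A := A) (Γ := Γ) c
      rw [hϖ, Ideal.mem_span_singleton] at hcc'
      obtain ⟨c'', hc''⟩ := hcc'
      refine ⟨n + (⟨c', hc'⟩ : inertiaSub A B Γ) • v ⟨i, hi⟩, ?_, ?_⟩
      · refine N.add_mem hn (N.smul_mem _ (Submodule.subset_span ⟨_, rfl⟩))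
      · rw [hϖ, Ideal.span_singleton_pow, Ideal.mem_span_singleton]
        refine ⟨c'', ?_⟩
        have h1 : ((⟨c', hc'⟩ : inertiaSub A B Γ) • v ⟨i, hi⟩ : B) = c' * ϖ ^ i := rfl
        rw [h1, pow_succ]
        have h2 : b = n + ϖ ^ i * c := by rw [← hc]; ring
        have h3 : c = c' + ϖ * c'' := by rw [← hc'']; ring
        rw [h2, h3]
        ring
  have hmax : maximalIdeal (inertiaSub A B Γ) =
      Ideal.span {algebraMap A (inertiaSub A B Γ) a} := maximalIdeal_inertiaSub Γ hA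
  have hNak : (⊤ : Submodule (inertiaSub A B Γ) B) ≤
      N ⊔ maximalIdeal (inertiaSub A B Γ) • (⊤ : Submodule (inertiaSub A B Γ) B) := by
    intro b _
    obtain ⟨n, hn, hbn⟩ := key e le_rfl b
    rw [← he, Ideal.mem_span_singleton] at hbn
    obtain ⟨y, hy⟩ := hbn
    have h1 : b = n + (algebraMap A (inertiaSub A B Γ) a) • y := by
      have : ((algebraMap A (inertiaSub A B Γ) a) • y : B) = algebraMap A B a * y := rfl
      rw [this, ← hy]
      ring
    rw [h1]
    refine Submodule.add_mem_sup hn (Submodule.smul_mem_smul ?_ Submodule.mem_top)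
    rw [hmax]
    exact Ideal.subset_span rfl
  have htop : (⊤ : Submodule (inertiaSub A B Γ) B) ≤ N :=
    Submodule.le_of_le_smul_of_le_jacobson_bot Module.Finite.fg_top
      (by rw [jacobson_eq_maximalIdeal ⊥ bot_ne_top]) hNak
  obtain ⟨c, hc⟩ := (Submodule.mem_span_range_iff_exists_fun _).mp (htop (Submodule.mem_top : b ∈ ⊤))
  exact ⟨c, hc.symm⟩


/-! ### The Eisenstein polynomial of a uniformizer -/

instance inertiaSub_instDVR : IsDiscreteValuationRing (inertiaSub A B Γ) :=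
  inertiaSub_dvr A Γ

instance inertiaSub_instFinite : Module.Finite (inertiaSub A B Γ) B :=
  Module.Finite.of_restrictScalars_finite A _ B

theorem addVal_smul_uniformizer {ϖ : B} (hϖ : Irreducible ϖ) (σ : Γ) :
    maximalIdeal B = Ideal.span {σ • ϖ} := by
  have h : Irreducible (σ • ϖ) :=
    (MulEquiv.irreducible_iff (MulSemiringAction.toRingEquiv Γ B σ)).mpr hϖ
  exact h.maximalIdeal_eq

variable (Γ) in
/-- The characteristic polynomial of `ϖ` under the inertia group, with coefficients in `B`. -/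
def charPolyB (ϖ : B) : B[X] :=
  @MulSemiringAction.charpoly B (inertiaGrp B Γ) _ _ _ (Fintype.ofFinite _) ϖ

theorem charPolyB_monic (ϖ : B) : (charPolyB Γ ϖ).Monic :=
  @MulSemiringAction.monic_charpoly B (inertiaGrp B Γ) _ _ _ (Fintype.ofFinite _) ϖ

theorem charPolyB_natDegree (ϖ : B) :
    (charPolyB Γ ϖ).natDegree = Nat.card (inertiaGrp B Γ) := by
  classical
  letI : Fintype (inertiaGrp B Γ) := Fintype.ofFinite _
  unfold charPolyB
  rw [MulSemiringAction.charpoly_eq, natDegree_prod_of_monic _ _ (fun g _ => monic_X_sub_C _)]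
  simp only [natDegree_X_sub_C, Finset.sum_const, Finset.card_univ, smul_eq_mul, mul_one]
  exact (Nat.card_eq_fintype_card).symm

theorem charPolyB_eval (ϖ : B) : (charPolyB Γ ϖ).eval ϖ = 0 :=
  @MulSemiringAction.eval_charpoly B (inertiaGrp B Γ) _ _ _ (Fintype.ofFinite _) ϖ

theorem charPolyB_coeff_mem (ϖ : B) (n : ℕ) : (charPolyB Γ ϖ).coeff n ∈ inertiaSub A B Γ := by
  rw [mem_inertiaSub]
  intro σ hσ
  exact @MulSemiringAction.smul_coeff_charpoly B (inertiaGrp B Γ) _ _ _ (Fintype.ofFinite _)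
    ϖ n ⟨σ, hσ⟩

/-- The lower coefficients of the characteristic polynomial of an element of `𝔪_B` lie in
`𝔪_B`. -/
theorem charPolyB_coeff_mem_maximalIdeal {ϖ : B} (hϖ : ϖ ∈ maximalIdeal B) {n : ℕ}
    (hn : n < Nat.card (inertiaGrp B Γ)) : (charPolyB Γ ϖ).coeff n ∈ maximalIdeal B := by
  classical
  letI : Fintype (inertiaGrp B Γ) := Fintype.ofFinite _
  have hmap : (charPolyB Γ ϖ).map (residue B) = X ^ Nat.card (inertiaGrp B Γ) := by
    have h0 : ∀ g : inertiaGrp B Γ, residue B (g • ϖ) = 0 := by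
      intro g
      rw [residue_eq_zero_iff]
      have h1 : g • ϖ - ϖ ∈ maximalIdeal B := g.2 ϖ
      have h2 := Ideal.add_mem _ h1 hϖ
      rwa [sub_add_cancel] at h2
    unfold charPolyB
    rw [MulSemiringAction.charpoly_eq, Polynomial.map_prod]
    simp only [Polynomial.map_sub, Polynomial.map_X, Polynomial.map_C, h0, map_zero, sub_zero]
    rw [Finset.prod_const, Finset.card_univ, Nat.card_eq_fintype_card]
  rw [← residue_eq_zero_iff, ← coeff_map, hmap, coeff_X_pow, if_neg hn.ne]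

/-- The constant coefficient of the characteristic polynomial of a uniformizer generates
`𝔪_B ^ |Γ₀|`. -/
theorem span_charPolyB_coeff_zero {ϖ : B} (hϖ : Irreducible ϖ) :
    Ideal.span {(charPolyB Γ ϖ).coeff 0} = maximalIdeal B ^ Nat.card (inertiaGrp B Γ) := by
  classical
  letI : Fintype (inertiaGrp B Γ) := Fintype.ofFinite _
  rw [coeff_zero_eq_eval_zero]
  unfold charPolyB
  rw [MulSemiringAction.charpoly_eq, eval_prod, ← Ideal.prod_span_singleton]
  have h : ∀ g ∈ (Finset.univ : Finset (inertiaGrp B Γ)),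
      Ideal.span {eval 0 (X - C (g • ϖ))} = maximalIdeal B := by
    intro g _
    rw [eval_sub, eval_X, eval_C, zero_sub, Ideal.span_singleton_neg]
    exact (addVal_smul_uniformizer hϖ (g : Γ)).symm
  rw [Finset.prod_congr rfl h, Finset.prod_const, Finset.card_univ, Nat.card_eq_fintype_card]


/-! ### The Eisenstein presentation -/

omit [Finite (ResidueField A)] [Finite Γ] [FaithfulSMul Γ B] [Algebra.IsInvariant A B Γ]
  [SMulCommClass Γ A B] [MulSemiringAction Γ B] [Group Γ] in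
theorem map_maximalIdeal_eq {a : A} (hA : maximalIdeal A = Ideal.span {a}) {e : ℕ}
    (he : Ideal.span {algebraMap A B a} = maximalIdeal B ^ e) :
    (maximalIdeal A).map (algebraMap A B) = maximalIdeal B ^ e := by
  rw [hA, Ideal.map_span, Set.image_singleton, he]

omit [Finite (ResidueField A)] [Finite Γ] [FaithfulSMul Γ B] [Algebra.IsInvariant A B Γ]
  [SMulCommClass Γ A B] [MulSemiringAction Γ B] [Group Γ] in
theorem ramification_ne_zero {a : A} (hA : maximalIdeal A = Ideal.span {a}) {e : ℕ}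
    (he : Ideal.span {algebraMap A B a} = maximalIdeal B ^ e) : e ≠ 0 := by
  rintro rfl
  rw [pow_zero, Ideal.one_eq_top, Ideal.span_singleton_eq_top] at he
  have ha : IsUnit a := isUnit_of_map_unit (algebraMap A B) a he
  have : a ∈ maximalIdeal A := by rw [hA]; exact Ideal.subset_span rfl
  exact (mem_nonunits_iff.mp ((mem_maximalIdeal a).mp this)) ha

variable (Γ) in
/-- The Eisenstein polynomial `G₀ ∈ B₀[X]` of a uniformizer `ϖ` of `B`. -/
theorem exists_eisPoly {a : A} (hA : maximalIdeal A = Ideal.span {a}) {e : ℕ}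
    (he : Ideal.span {algebraMap A B a} = maximalIdeal B ^ e) {ϖ : B} (hϖ : Irreducible ϖ) :
    ∃ G₀ : (inertiaSub A B Γ)[X], G₀.map (algebraMap (inertiaSub A B Γ) B) = charPolyB Γ ϖ ∧
      FLD.IsEis G₀ ∧ G₀.natDegree = e ∧ aeval ϖ G₀ = 0 := by
  have he0 : e ≠ 0 := ramification_ne_zero hA he
  have hcard : Nat.card (inertiaGrp B Γ) = e := card_inertiaGrp A Γ (map_maximalIdeal_eq hA he)
  have hlift : charPolyB Γ ϖ ∈ lifts (algebraMap (inertiaSub A B Γ) B) := by
    rw [lifts_iff_coeff_lifts]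
    intro n
    exact ⟨⟨_, charPolyB_coeff_mem (A := A) ϖ n⟩, rfl⟩
  obtain ⟨G₀, hmap, hdeg, hmonic⟩ :=
    Polynomial.lifts_and_degree_eq_and_monic hlift (charPolyB_monic ϖ)
  have hnat : G₀.natDegree = e := by
    rw [natDegree_eq_of_degree_eq hdeg, charPolyB_natDegree, hcard]
  have hcoeff : ∀ n, ((G₀.coeff n : inertiaSub A B Γ) : B) = (charPolyB Γ ϖ).coeff n := by
    intro n
    rw [← hmap, coeff_map]
    rfl
  have hmax : maximalIdeal (inertiaSub A B Γ) =
      Ideal.span {algebraMap A (inertiaSub A B Γ) a} := maximalIdeal_inertiaSub Γ hA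
  have hϖmem : ϖ ∈ maximalIdeal B := by
    rw [hϖ.maximalIdeal_eq]
    exact Ideal.subset_span rfl
  refine ⟨G₀, hmap, ⟨hmonic, ⟨?_, ?_, ?_⟩, ?_⟩, hnat, ?_⟩
  · rw [hmonic.leadingCoeff]
    exact fun h => (Ideal.ne_top_iff_one _).mp (maximalIdeal.isMaximal _).ne_top h
  · intro n hn
    rw [mem_maximalIdeal_iff, hcoeff]
    rw [hnat, ← hcard] at hn
    exact charPolyB_coeff_mem_maximalIdeal hϖmem hn
  · intro h
    rw [hmax, Ideal.span_singleton_pow, Ideal.mem_span_singleton] at h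
    obtain ⟨t, ht⟩ := h
    have h1 : (charPolyB Γ ϖ).coeff 0 = algebraMap A B a ^ 2 * (t : B) := by
      rw [← hcoeff, ht]
      rfl
    have h2 : (charPolyB Γ ϖ).coeff 0 ∈ maximalIdeal B ^ (e + 1) := by
      have h3 : algebraMap A B a ^ 2 ∈ maximalIdeal B ^ (2 * e) := by
        rw [pow_mul', ← he, Ideal.span_singleton_pow]
        exact Ideal.subset_span rfl
      have h4 : maximalIdeal B ^ (2 * e) ≤ maximalIdeal B ^ (e + 1) :=
        Ideal.pow_le_pow_right (by omega)
      rw [h1]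
      exact Ideal.mul_mem_right _ _ (h4 h3)
    have h5 : maximalIdeal B ^ e ≤ maximalIdeal B ^ (e + 1) := by
      rw [← hcard, ← span_charPolyB_coeff_zero hϖ, Ideal.span_singleton_le_iff_mem, hcard]
      exact h2
    exact pow_not_le_pow_succ e h5
  · rw [hnat]
    exact Nat.pos_of_ne_zero he0
  · rw [aeval_def, eval₂_eq_eval_map, hmap]
    exact charPolyB_eval ϖ

variable (Γ) in
/-- **Eisenstein presentation**: `B ≅ B₀[X]/(G₀)` with `G₀` Eisenstein of degree `e`. -/
theorem exists_eisEquiv {a : A} (hA : maximalIdeal A = Ideal.span {a}) {e : ℕ}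
    (he : Ideal.span {algebraMap A B a} = maximalIdeal B ^ e) {ϖ : B} (hϖ : Irreducible ϖ) :
    ∃ (G₀ : (inertiaSub A B Γ)[X]) (_ : FLD.IsEis G₀)
      (φ : AdjoinRoot G₀ ≃ₐ[inertiaSub A B Γ] B),
      G₀.map (algebraMap (inertiaSub A B Γ) B) = charPolyB Γ ϖ ∧ G₀.natDegree = e ∧
        φ (AdjoinRoot.root G₀) = ϖ := by
  obtain ⟨G₀, hmap, hG, hnat, hroot⟩ := exists_eisPoly Γ hA he hϖ
  haveI := hG.isDomain
  haveI := hG.isIntegral
  let φ₀ : AdjoinRoot G₀ →ₐ[inertiaSub A B Γ] B :=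
    AdjoinRoot.liftAlgHom G₀ (Algebra.ofId (inertiaSub A B Γ) B) ϖ hroot
  have hφroot : φ₀ (AdjoinRoot.root G₀) = ϖ := AdjoinRoot.liftAlgHom_root _ _ _ _
  have hinj : Function.Injective φ₀ := by
    rw [← AlgHom.coe_toRingHom, RingHom.injective_iff_ker_eq_bot]
    apply Ideal.eq_bot_of_comap_eq_bot (R := inertiaSub A B Γ)
    rw [eq_bot_iff]
    intro x hx
    rw [Ideal.mem_comap, RingHom.mem_ker] at hx
    have h1 : φ₀ (algebraMap (inertiaSub A B Γ) (AdjoinRoot G₀) x) =
        algebraMap (inertiaSub A B Γ) B x := AlgHom.commutes _ x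
    have h2 : algebraMap (inertiaSub A B Γ) B x = 0 := h1.symm.trans hx
    rw [Ideal.mem_bot]
    exact Subtype.ext h2
  have hsurj : Function.Surjective φ₀ := by
    intro b
    obtain ⟨c, hc⟩ := exists_basis_repr Γ hA he hϖ.maximalIdeal_eq b
    refine ⟨∑ i, AdjoinRoot.of G₀ (c i) * AdjoinRoot.root G₀ ^ (i : ℕ), ?_⟩
    rw [map_sum, hc]
    refine Finset.sum_congr rfl fun i _ => ?_
    rw [map_mul, map_pow, hφroot]
    congr 1
    exact AdjoinRoot.liftAlgHom_of _ _ _ _ _
  exact ⟨G₀, hG, AlgEquiv.ofBijective φ₀ ⟨hinj, hsurj⟩, hmap, hnat, hφroot⟩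

end

end Fermat.Agent.S56.H134.Struct
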